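/-
[P3P4] (helper15, literal owner): the common last step of every route to
`Contract34.Reciprocity`: additive `T`-valued local maps on `H²(G_q, μ_p)` (e.g. `inv_q ∘ Kummer`)
with `T[p] ≅ ℤ/p`, all nonzero, whose sum kills the global classes, give the plug.
-/
import Fermat.Agent.S55.Profin15.Contract
import Fermat.Agent.S55.QZ33

set_option autoImplicit false

open CategoryTheory Module groupCohomology ExtCitation
open Fermat.Agent.S55.Profin15
open Fermat.Agent.Lib.FrobeniusExists (Qb GQ)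
open Fermat.Agent.S55.Contract34
open Fermat.Agent.S55.Profin15.Plug

namespace Fermat.Agent.S55.Recip15

variable (p : ℕ) [Fact p.Prime] (S : Finset Nat.Primes)

section Generic

variable {T : Type*} [AddCommGroup T] (jT : ZMod p →+ T) (hjT : Function.Injective jT)
  (hT : ∀ t : T, p • t = 0 → t ∈ Set.range jT)

include hjT hT in
/-- an additive map from a `ZMod p`-module to `T` (with `T[p] = jT (ZMod p)`) factors uniquely
through `jT`, as a `ZMod p`-linear functional -/
lemma exists_linear_factor {X : Type*} [AddCommGroup X] [Module (ZMod p) X] (ℓ : X →+ T) :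
    ∃ lam : X →ₗ[ZMod p] ZMod p, ∀ x, jT (lam x) = ℓ x := by
  have hx : ∀ x : X, p • ℓ x = 0 := fun x => by
    rw [← map_nsmul]
    have : p • x = 0 := by
      rw [← Nat.cast_smul_eq_nsmul (ZMod p), ZMod.natCast_self, zero_smul]
    rw [this, map_zero]
  choose f hf using fun x => hT (ℓ x) (hx x)
  let g : X →+ ZMod p :=
    { toFun := f
      map_zero' := hjT (by rw [hf, map_zero, map_zero])
      map_add' := fun x y => hjT (by rw [map_add, hf, hf, hf, map_add]) }
  exact ⟨g.toZModLinearMap p, fun x => hf x⟩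

end Generic

/-- **The common last step of P3P4.**  `ℓ q` = (possibly renormalised) local invariant composed with
the Kummer map `H²(G_q, μ_p) → Br(ℚ_q)`. -/
theorem reciprocityL_of_sum {T : Type*} [AddCommGroup T] (jT : ZMod p →+ T)
    (hjT : Function.Injective jT) (hT : ∀ t : T, p • t = 0 → t ∈ Set.range jT)
    (ℓ : ∀ q : ↥S, (pullLevels (primeLocalToGlobal q.1)).H2
      (Rep.res (primeLocalToGlobal q.1) (mu p)) →+ T)
    (hne : ∀ q : ↥S, ∃ y, ℓ q y ≠ 0)
    (hsum : ∀ x : (globalLevels S).H2 (mu p), ∑ q : ↥S, ℓ q (locq p S q.1 (mu p) x) = 0) :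
    ReciprocityL p S := by
  choose lam hlam using fun q : ↥S => exists_linear_factor p jT hjT hT (ℓ q)
  refine ⟨lam, fun q h0 => ?_, fun x => ?_⟩
  · obtain ⟨y, hy⟩ := hne q
    apply hy
    rw [← hlam q y, h0, LinearMap.zero_apply, map_zero]
  · apply hjT
    rw [map_sum, map_zero, ← hsum x]
    exact Finset.sum_congr rfl fun q _ => hlam q _

/-- the literal plug from the same data -/
theorem reciprocity_of_sum {T : Type*} [AddCommGroup T] (jT : ZMod p →+ T)
    (hjT : Function.Injective jT) (hT : ∀ t : T, p • t = 0 → t ∈ Set.range jT)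
    (ℓ : ∀ q : ↥S, (pullLevels (primeLocalToGlobal q.1)).H2
      (Rep.res (primeLocalToGlobal q.1) (mu p)) →+ T)
    (hne : ∀ q : ↥S, ∃ y, ℓ q y ≠ 0)
    (hsum : ∀ x : (globalLevels S).H2 (mu p), ∑ q : ↥S, ℓ q (locq p S q.1 (mu p) x) = 0) :
    Reciprocity p S :=
  (reciprocity_iff p S).2 (reciprocityL_of_sum p S jT hjT hT ℓ hne hsum)

/-- the literal plug, with `T := QZ33.QZ = AddCircle (1 : ℚ)` (the team's fixed model of `ℚ/ℤ`) -/
theorem reciprocity_of_sum_QZ
    (ℓ : ∀ q : ↥S, (pullLevels (primeLocalToGlobal q.1)).H2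
      (Rep.res (primeLocalToGlobal q.1) (mu p)) →+ QZ33.QZ)
    (hne : ∀ q : ↥S, ∃ y, ℓ q y ≠ 0)
    (hsum : ∀ x : (globalLevels S).H2 (mu p), ∑ q : ↥S, ℓ q (locq p S q.1 (mu p) x) = 0) :
    Reciprocity p S :=
  reciprocity_of_sum p S (QZ33.QZ.jT p) (QZ33.QZ.jT_injective (Fact.out : p.Prime).ne_zero)
    (fun _ ht => QZ33.QZ.mem_range_jT (Fact.out : p.Prime).ne_zero ht) ℓ hne hsum

end Fermat.Agent.S55.Recip15
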