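/-
[P3P4] (helper15): the evaluation maps `ev_q : J_S → (ℚ̄_q)ˣ` of the limit `S`-idele module
(helper94's `GlobalMod94.JS.JSp`) at the place of `ℚ̄` behind `primeLocalToGlobal q`:
`ev_q x = (x_q)(1)`.  They are equivariant along `primeLocalToGlobal q` and restrict on the
diagonal `E_S ⊆ J_S` to the `q`-adic embedding (helper20's `RecipGlobal20.embUnits`).
These are the binders `ev hev hevi` of `RecipGlobal20.hrec_of_formation` and `evq hevq hev` of
helper70's `Recip70` reduction.
-/
import Fermat.Agent.S55.GlobalMod94.JS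
import Fermat.Agent.S55.RecipGlobal20
import Fermat.Agent.S55.Recip70.Reduce

set_option autoImplicit false
set_option linter.style.haveILetI false

open CategoryTheory groupCohomology ExtCitation
open Fermat.Agent.S55.Profin15
open Fermat.Agent.S55.Idele73.Basic
open Fermat.Agent.S55.CS79.Smooth
open Fermat.Agent.S55.GlobalMod94.JS Fermat.Agent.S55.GlobalMod94.Generic
open Fermat.Agent.S55.ESRep20 Fermat.Agent.S55.RecipGlobal20

namespace Fermat.Agent.S55.Recip15.Ev

variable (S : Finset Nat.Primes)

section Component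

variable (q : ℕ) [Fact q.Prime]

/-- evaluation at `1 ∈ G_ℚ` of an element of the `q`-component `J_{S,q}` -/
noncomputable def evOne : JSq S q →+ (localUnits q) where
  toFun x := (smoothIncl (globalLevels S) _ x).1 1
  map_zero' := rfl
  map_add' _ _ := rfl

theorem evOne_apply (x : JSq S q) :
    evOne S q x = (smoothIncl (globalLevels S) _ x).1 1 := rfl

/-- `ev` is equivariant along `localGaloisToGlobal q` -/
theorem evOne_ρ (h : Gq q) (x : JSq S q) :
    evOne S q ((JSq S q).ρ (localGaloisToGlobal q h) x) = (localUnits q).ρ h (evOne S q x) := by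
  have h1 := (smoothIncl (globalLevels S) (CS79.Limit.Jbig q (localUnits q)) x).2 h 1
  rw [mul_one] at h1
  rw [evOne_apply, evOne_apply, ← h1]
  show (smoothIncl (globalLevels S) _ x).1 (1 * localGaloisToGlobal q h) = _
  rw [one_mul]

end Component

/-! ### on the full `S`-idele module -/

/-- **`ev_q : J_S → (ℚ̄_q)ˣ`**, `x ↦ (x_q)(1)` (target in helper20's vocabulary `Om q`) -/
noncomputable def evq (q : ↥S) : JSp S →+ Om q.1 :=
  (evOne S ((q : Nat.Primes) : ℕ)).comp
    (Pi.evalAddMonoidHom (fun q : ↥S => JSq S ((q : Nat.Primes) : ℕ)) q)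

theorem evq_apply (q : ↥S) (x : JSp S) :
    evq S q x = (smoothIncl (globalLevels S) _ (x q)).1 1 := rfl

/-- **`hev`**: `ev_q` is equivariant along `primeLocalToGlobal q` -/
theorem evq_ρ (q : ↥S) (τ : primeLocalGaloisGroup q.1) (x : JSp S) :
    evq S q ((JSp S).ρ (primeLocalToGlobal q.1 τ) x) = (Om q.1).ρ τ (evq S q x) :=
  evOne_ρ S ((q : Nat.Primes) : ℕ) τ (x q)

/-- **`hevi`**: on the diagonal `E_S ⊆ J_S`, `ev_q` is the `q`-adic embedding -/
theorem evq_ιES (q : ↥S) (e : ESRep S) :
    evq S q ((ιES S).hom e) = embUnits q.1 (ESDiv20.ES S) ES_galStable e := rfl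

/-- additive form of `ιES` -/
noncomputable def ιESadd : ESRep S →+ JSp S := (ιES S).hom.toLinearMap.toAddMonoidHom

theorem isAddEquivariant_ιESadd :
    LevelScalars13.IsAddEquivariant (A := ESRep S) (B := JSp S) (ιESadd S) :=
  fun g e => Rep.hom_comm_apply (ιES S) g e

/-- additive form of `πCS` -/
noncomputable def πCSadd : JSp S →+ CSp S := (πCS S).hom.toLinearMap.toAddMonoidHom

theorem isAddEquivariant_πCSadd :
    LevelScalars13.IsAddEquivariant (A := JSp S) (B := CSp S) (πCSadd S) :=
  fun g x => Rep.hom_comm_apply (πCS S) g x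

theorem πCSadd_ιESadd (e : ESRep S) : πCSadd S (ιESadd S e) = 0 :=
  (Submodule.Quotient.mk_eq_zero _).2 ⟨e, rfl⟩

end Fermat.Agent.S55.Recip15.Ev
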