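/-
[P3P4] (helper15, literal owner), ROUTE I assembled on the concrete limit formation datum:
`E_S → J_S → C'_S` (helper94 `GlobalMod94.JS`), `ev_q` (`Recip15.Ev`), the formal reduction of
helper20 (`RecipGlobal20.reciprocityL_of_top`, `hrec_of_formation`).

`Contract34.Reciprocity p S` follows from

* `inv q : H²(𝒱_q; (ℚ̄_q)ˣ) →+ ℚ/ℤ`  (the limit local invariants, `𝒱_q` = FULL local levels),
* `hloc` : some Kummer class of `H²(𝒱_q; μ_p)` has nonzero invariant (`Br(ℚ_q)[p] ≠ 0` detected),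
* `invC : H²(G_S; C'_S) →+ ℚ/ℤ` with `invC ∘ π_* = ∑_{q ∈ S} inv q ∘ EV_q`   (`hcompat`).
-/
import Fermat.Agent.S55.Recip15.Ev
import Fermat.Agent.S55.Recip15.Core

set_option autoImplicit false
set_option linter.style.haveILetI false

open CategoryTheory groupCohomology ExtCitation
open Fermat.Agent.S55.Profin15 Fermat.Agent.S55.Profin15.LevelStr
open Fermat.Agent.S55.Contract34 Fermat.Agent.S55.Profin15.Plug
open Fermat.Agent.S55.GlobalMod94.JS
open Fermat.Agent.S55.ESDiv20 Fermat.Agent.S55.ESRep20 Fermat.Agent.S55.ESKummer20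
open Fermat.Agent.S55.RecipGlobal20 Fermat.Agent.S55.LevelScalars13
open Fermat.Agent.S55.Recip15.Ev

namespace Fermat.Agent.S55.Recip15.RouteI

variable {p : ℕ} [Fact p.Prime] (S : Finset Nat.Primes)

/-- the `q`-adic embedding of the `S`-units, `E_S →+ (ℚ̄_q)ˣ` -/
noncomputable def embES (q : ↥S) : ESRep S →+ Om q.1 := embUnits q.1 (ES S) ES_galStable

theorem embES_ρ (q : ↥S) (τ : primeLocalGaloisGroup q.1) (e : ESRep S) :
    embES S q ((ESRep S).ρ (primeLocalToGlobal q.1 τ) e) = (Om q.1).ρ τ (embES S q e) :=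
  embUnits_equivariant q.1 (ES S) ES_galStable τ e

/-- localisation `H²(G_S; E_S) → H²(𝒱_q; (ℚ̄_q)ˣ)` -/
noncomputable def locES (q : ↥S) :
    (globalLevels S).H2 (ESRep S) →+ (pullLevels (primeLocalToGlobal q.1)).H2 (Om q.1) :=
  locE (fun q : ↥S => Om q.1) (embES S) (embES_ρ S) q

/-- localisation `H²(G_S; J_S) → H²(𝒱_q; (ℚ̄_q)ˣ)`: restrict to the full local group at `q`, then
evaluate at the place behind `primeLocalToGlobal q` -/
noncomputable def EVq (q : ↥S) :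
    (globalLevels S).H2 (JSp S) →+ (pullLevels (primeLocalToGlobal q.1)).H2 (Om q.1) :=
  EV (fun q : ↥S => Om q.1) (evq S) (evq_ρ S) q

/-- the local Kummer map `H²(𝒱_q; μ_p) → H²(𝒱_q; (ℚ̄_q)ˣ)`, `a ↦ ι_q (ζ^a)` -/
noncomputable def kumq (hpS : pPrime p ∈ S) (ζ : Qbˣ) (hζ : ζ ^ p = 1) (q : ↥S) :
    (pullLevels (primeLocalToGlobal q.1)).H2 (Rep.res (primeLocalToGlobal q.1) (mu p)) →+
      (pullLevels (primeLocalToGlobal q.1)).H2 (Om q.1) :=
  kum hpS ζ hζ (fun q : ↥S => Om q.1) (embES S) (embES_ρ S) q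

/-! cocycle formulas (all `rfl`) -/

/-- the cocycle `(g, h) ↦ ev_q (c (r_q g, r_q h))` representing `EV_q [c]` -/
noncomputable def EVqZ (q : ↥S) (c : ↥((globalLevels S).Z₂ (JSp S))) :
    ↥((pullLevels (primeLocalToGlobal q.1)).Z₂ (Om q.1)) :=
  addZ₂map (pullLevels (primeLocalToGlobal q.1)) (evRes (fun q : ↥S => Om q.1) (evq S) q)
    (isAddEquivariant_evRes (fun q : ↥S => Om q.1) (evq S) (evq_ρ S) q)
    ((isContinuous_pullLevels S (primeLocalToGlobal q.1)).resZ₂ (JSp S) c)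

theorem coe_EVqZ (q : ↥S) (c : ↥((globalLevels S).Z₂ (JSp S)))
    (g : primeLocalGaloisGroup q.1 × primeLocalGaloisGroup q.1) :
    (EVqZ S q c : _ → Om q.1) g =
      evq S q ((c : GQ × GQ → JSp S) (primeLocalToGlobal q.1 g.1, primeLocalToGlobal q.1 g.2)) :=
  rfl

theorem EVq_H2π (q : ↥S) (c : ↥((globalLevels S).Z₂ (JSp S))) :
    EVq S q ((globalLevels S).H2π (JSp S) c) =
      (pullLevels (primeLocalToGlobal q.1)).H2π (Om q.1) (EVqZ S q c) := rfl

/-- the cocycle `(g, h) ↦ ι_q (c (r_q g, r_q h))` representing `loc_q [c]`, `c` with values in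
`E_S` -/
noncomputable def locESZ (q : ↥S) (c : ↥((globalLevels S).Z₂ (ESRep S))) :
    ↥((pullLevels (primeLocalToGlobal q.1)).Z₂ (Om q.1)) :=
  addZ₂map (pullLevels (primeLocalToGlobal q.1)) (embRes (fun q : ↥S => Om q.1) (embES S) q)
    (isAddEquivariant_embRes (fun q : ↥S => Om q.1) (embES S) (embES_ρ S) q)
    ((isContinuous_pullLevels S (primeLocalToGlobal q.1)).resZ₂ (ESRep S) c)

theorem coe_locESZ (q : ↥S) (c : ↥((globalLevels S).Z₂ (ESRep S)))
    (g : primeLocalGaloisGroup q.1 × primeLocalGaloisGroup q.1) :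
    (locESZ S q c : _ → Om q.1) g =
      embES S q ((c : GQ × GQ → ESRep S)
        (primeLocalToGlobal q.1 g.1, primeLocalToGlobal q.1 g.2)) := rfl

theorem locES_H2π (q : ↥S) (c : ↥((globalLevels S).Z₂ (ESRep S))) :
    locES S q ((globalLevels S).H2π (ESRep S) c) =
      (pullLevels (primeLocalToGlobal q.1)).H2π (Om q.1) (locESZ S q c) := rfl

/-- `EV_q ∘ (ι_{E_S})_* = loc_q` on `H²(G_S; E_S)` -/
theorem EVq_ιES (q : ↥S) (z : (globalLevels S).H2 (ESRep S)) :
    EVq S q (addH2map (globalLevels S) (ιESadd S) (isAddEquivariant_ιESadd S) z) =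
      locES S q z :=
  EV_addH2map (fun q : ↥S => Om q.1) (embES S) (embES_ρ S) (ιESadd S)
    (isAddEquivariant_ιESadd S) (evq S) (evq_ρ S) (evq_ιES S) q z

/-- **the sum formula on `H²(G_S; E_S)`** from the limit class invariant. -/
theorem hrec_of_invC {T : Type} [AddCommGroup T]
    (inv : ∀ q : ↥S, (pullLevels (primeLocalToGlobal q.1)).H2 (Om q.1) →+ T)
    (invC : (globalLevels S).H2 (CSp S) →+ T)
    (hcompat : ∀ x : (globalLevels S).H2 (JSp S),
      invC ((globalLevels S).H2map (πCS S).hom.toLinearMap (LevelStr.isEquivariant_hom _) x) =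
        ∑ q : ↥S, inv q (EVq S q x))
    (z : (globalLevels S).H2 (ESRep S)) :
    ∑ q : ↥S, inv q (locES S q z) = 0 := by
  refine hrec_of_formation (fun q : ↥S => Om q.1) (embES S) (embES_ρ S) inv
    (ιESadd S) (πCSadd S) (isAddEquivariant_ιESadd S) (isAddEquivariant_πCSadd S)
    (πCSadd_ιESadd S) (evq S) (evq_ρ S) (evq_ιES S) invC (fun x => ?_) z
  refine Eq.trans ?_ (hcompat x)
  congr 1

/-- **ROUTE I, level form.** -/
theorem reciprocityL_of_limit (hpS : pPrime p ∈ S) (ζ : Qbˣ) (hζ : ζ ^ p = 1)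
    (inv : ∀ q : ↥S, (pullLevels (primeLocalToGlobal q.1)).H2 (Om q.1) →+ QZ33.QZ)
    (hloc : ∀ q : ↥S, ∃ y, inv q (kumq S hpS ζ hζ q y) ≠ 0)
    (invC : (globalLevels S).H2 (CSp S) →+ QZ33.QZ)
    (hcompat : ∀ x : (globalLevels S).H2 (JSp S),
      invC ((globalLevels S).H2map (πCS S).hom.toLinearMap (LevelStr.isEquivariant_hom _) x) =
        ∑ q : ↥S, inv q (EVq S q x)) :
    ReciprocityL p S :=
  reciprocityL_of_top hpS ζ hζ (fun q : ↥S => Om q.1) (embES S) (embES_ρ S) inv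
    (QZ33.QZ.jT p) (QZ33.QZ.jT_injective (Fact.out : p.Prime).ne_zero)
    (fun _ ht => QZ33.QZ.mem_range_jT (Fact.out : p.Prime).ne_zero ht) hloc
    (fun z _ => hrec_of_invC S inv invC hcompat z)

/-- **ROUTE I, the literal plug.** -/
theorem reciprocity_of_limit (hpS : pPrime p ∈ S) (ζ : Qbˣ) (hζ : ζ ^ p = 1)
    (inv : ∀ q : ↥S, (pullLevels (primeLocalToGlobal q.1)).H2 (Om q.1) →+ QZ33.QZ)
    (hloc : ∀ q : ↥S, ∃ y, inv q (kumq S hpS ζ hζ q y) ≠ 0)
    (invC : (globalLevels S).H2 (CSp S) →+ QZ33.QZ)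
    (hcompat : ∀ x : (globalLevels S).H2 (JSp S),
      invC ((globalLevels S).H2map (πCS S).hom.toLinearMap (LevelStr.isEquivariant_hom _) x) =
        ∑ q : ↥S, inv q (EVq S q x)) :
    Reciprocity p S :=
  (reciprocity_iff p S).2 (reciprocityL_of_limit S hpS ζ hζ inv hloc invC hcompat)

/-- **ROUTE F, the literal plug**: only reciprocity on `H²(G_S; E_S)[p]` is needed. -/
theorem reciprocity_of_top (hpS : pPrime p ∈ S) (ζ : Qbˣ) (hζ : ζ ^ p = 1)
    (inv : ∀ q : ↥S, (pullLevels (primeLocalToGlobal q.1)).H2 (Om q.1) →+ QZ33.QZ)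
    (hloc : ∀ q : ↥S, ∃ y, inv q (kumq S hpS ζ hζ q y) ≠ 0)
    (hrec : ∀ z : (globalLevels S).H2 (ESRep S), p • z = 0 →
      ∑ q : ↥S, inv q (locES S q z) = 0) :
    Reciprocity p S :=
  (reciprocity_iff p S).2
    (reciprocityL_of_top hpS ζ hζ (fun q : ↥S => Om q.1) (embES S) (embES_ρ S) inv
      (QZ33.QZ.jT p) (QZ33.QZ.jT_injective (Fact.out : p.Prime).ne_zero)
      (fun _ ht => QZ33.QZ.mem_range_jT (Fact.out : p.Prime).ne_zero ht) hloc hrec)

end Fermat.Agent.S55.Recip15.RouteI
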