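/-
[P3P4] (helper15, literal owner): `hrec` (the global input of ROUTE F, `Recip15.RouteI.reciprocity_of_top`)
from the statement (B→) of the LIMIT FORMATION in the D2 model
`Q_Sˣ → J_S × I^S → C_S` (helper79 `CS79.ClassSeq` / `CS79.DivLimit`, helper94 `GlobalMod94.JS`):

if `invJ` on `H²(G_S; J_S × I^S)` restricts on the `J_S`-factor to `∑_{q ∈ S} inv q ∘ EV_q`, and
`invJ ∘ (diag)_*` kills the `p`-primary classes of `H²(G_S; Q_Sˣ)`, then
`∑_{q ∈ S} inv q (loc_q z) = 0` for every `p`-torsion `z ∈ H²(G_S; E_S)` — because the divisor of an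
`S`-unit vanishes, `diag ∘ incl = inl ∘ ι_{E_S}`.
-/
import Fermat.Agent.S55.Recip15.RouteI
import Fermat.Agent.S55.CS79.DivLimit

set_option autoImplicit false
set_option linter.style.haveILetI false

open CategoryTheory groupCohomology ExtCitation
open Fermat.Agent.S55.Profin15 Fermat.Agent.S55.Profin15.LevelStr
open Fermat.Agent.S55.Contract34
open Fermat.Agent.S55.GlobalMod94.JS
open Fermat.Agent.S55.ESDiv20 Fermat.Agent.S55.ESRep20
open Fermat.Agent.S55.RecipGlobal20 Fermat.Agent.S55.LevelScalars13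
open Fermat.Agent.S55.Recip15.Ev Fermat.Agent.S55.Recip15.RouteI
open Fermat.Agent.S55.CS79.ClassSeq Fermat.Agent.S55.CS79.DivLimit

namespace Fermat.Agent.S55.Recip15.D2

variable {p : ℕ} (S : Finset Nat.Primes)

/-- the inclusion `E_S ⟶ Q_Sˣ` -/
noncomputable abbrev inclES : ESRep S ⟶ QSxRep S :=
  ESRep20.incl (hH := ES_galStable) (hH' := QSx_galStable) ES_le_QSx

/-- the first inclusion `J_S → J_S × I^S`, additive -/
noncomputable def inlAdd : JSp S →+ prodRep (JSp S) (ISlim S) :=
  AddMonoidHom.inl (JSp S) (ISlim S)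

theorem isAddEquivariant_inlAdd :
    IsAddEquivariant (A := JSp S) (B := prodRep (JSp S) (ISlim S)) (inlAdd S) := by
  intro g x
  show ((JSp S).ρ g x, (0 : ISlim S)) = ((JSp S).ρ g x, (ISlim S).ρ g 0)
  rw [map_zero]

/-- the diagonal `Q_Sˣ → J_S × I^S`, additive -/
noncomputable def diagAdd : QSxRep S →+ prodRep (JSp S) (ISlim S) :=
  (diagHom (diagJ S) (divLim S)).hom.toLinearMap.toAddMonoidHom

theorem isAddEquivariant_diagAdd :
    IsAddEquivariant (A := QSxRep S) (B := prodRep (JSp S) (ISlim S)) (diagAdd S) :=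
  fun g x => Rep.hom_comm_apply (diagHom (diagJ S) (divLim S)) g x

/-- the inclusion `E_S → Q_Sˣ`, additive -/
noncomputable def inclAdd : ESRep S →+ QSxRep S := (inclES S).hom.toLinearMap.toAddMonoidHom

theorem isAddEquivariant_inclAdd :
    IsAddEquivariant (A := ESRep S) (B := QSxRep S) (inclAdd S) :=
  fun g x => Rep.hom_comm_apply (inclES S) g x

/-- **`hrec` from (B→) of the D2 limit formation.**  `hdiv` (`S`-units have trivial divisor) is
helper72's `ClassData72.divLim_eq_zero_iff`. -/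
theorem hrec_of_Bto {T : Type} [AddCommGroup T]
    (inv : ∀ q : ↥S, (pullLevels (primeLocalToGlobal q.1)).H2 (Om q.1) →+ T)
    (invJ : (globalLevels S).H2 (prodRep (JSp S) (ISlim S)) →+ T)
    (hfst : ∀ x : (globalLevels S).H2 (JSp S),
      invJ (addH2map (globalLevels S) (inlAdd S) (isAddEquivariant_inlAdd S) x) =
        ∑ q : ↥S, inv q (EVq S q x))
    (hdiv : ∀ e : ESRep S, (divLim S).hom ((inclES S).hom e) = 0)
    (hBto : ∀ e : (globalLevels S).H2 (QSxRep S), (∃ n : ℕ, p ^ n • e = 0) →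
      invJ (addH2map (globalLevels S) (diagAdd S) (isAddEquivariant_diagAdd S) e) = 0)
    (z : (globalLevels S).H2 (ESRep S)) (hz : p • z = 0) :
    ∑ q : ↥S, inv q (locES S q z) = 0 := by
  have h1 : addH2map (globalLevels S) (diagAdd S) (isAddEquivariant_diagAdd S)
      (addH2map (globalLevels S) (inclAdd S) (isAddEquivariant_inclAdd S) z) =
      addH2map (globalLevels S) (inlAdd S) (isAddEquivariant_inlAdd S)
        (addH2map (globalLevels S) (ιESadd S) (isAddEquivariant_ιESadd S) z) := by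
    rw [← addH2map_comp, ← addH2map_comp]
    refine addH2map_congr (globalLevels S) _ _ (fun e => ?_) z
    show ((diagJ S).hom ((inclES S).hom e), (divLim S).hom ((inclES S).hom e)) =
      ((ιES S).hom e, (0 : ISlim S))
    rw [hdiv e]
    rfl
  have h2 := hBto (addH2map (globalLevels S) (inclAdd S) (isAddEquivariant_inclAdd S) z)
    ⟨1, by rw [pow_one, ← map_nsmul, hz, map_zero]⟩
  rw [h1, hfst] at h2
  rw [← h2]
  exact Finset.sum_congr rfl fun q _ => by rw [EVq_ιES]

end Fermat.Agent.S55.Recip15.D2
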