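/-
[P3P4] (helper15, literal owner): the LOCAL inputs of `Recip15.RouteI` from the shapes in which
the local seats deliver them (helper70/helper69/helper85: `Recip70.Br q = CDArith63.H2 …`):

* `brEquiv q : Recip70.Br q ≃+ (pullLevels (primeLocalToGlobal q)).H2 (RecipGlobal20.Om q)`
  (identity on cocycles),
* `invOfBr q inv' := inv' ∘ (brEquiv q).symm`,
* `brEquiv_kummerLoc` : helper69's `kummerLoc` IS `RouteI.kumq` under `brEquiv`,
* `hloc_of_hne` : `hne q : ∃ z : Br q, p • z = 0 ∧ inv' q z ≠ 0` (helper85) gives the hypothesis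
  `hloc` of `RouteI.reciprocity_of_limit / reciprocity_of_top` (through helper69's (K1)).
-/
import Fermat.Agent.S55.Recip15.RouteI
import Fermat.Agent.S55.Recip70.Kummer
import Fermat.Agent.S55.Profin15.Adapter63

set_option autoImplicit false
set_option linter.style.haveILetI false

open CategoryTheory groupCohomology ExtCitation
open Fermat.Agent.S55.Profin15 Fermat.Agent.S55.Profin15.LevelStr
open Fermat.Agent.S55.Contract34 Fermat.Agent.S55.Profin15.Plug
open Fermat.Agent.S55.ESDiv20 Fermat.Agent.S55.ESRep20 Fermat.Agent.S55.ESKummer20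
open Fermat.Agent.S55.RecipGlobal20 Fermat.Agent.S55.LevelScalars13
open Fermat.Agent.S55.Recip15.RouteI

namespace Fermat.Agent.S55.Recip15.Local

/-- **`Br q` in the two vocabularies** (identity on cocycles) -/
noncomputable def brEquiv (q : Nat.Primes) :
    Recip70.Br q ≃+ (pullLevels (primeLocalToGlobal q)).H2 (Om q) :=
  Adapter63.equiv (pullLevels (primeLocalToGlobal q)) (Om q)

/-- a functional on `Recip70.Br q` as a functional on `Profin15`'s level `H²` of `Om q` -/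
noncomputable def invOfBr {T : Type*} [AddCommGroup T] (q : Nat.Primes) (inv' : Recip70.Br q →+ T) :
    (pullLevels (primeLocalToGlobal q)).H2 (Om q) →+ T :=
  inv'.comp (brEquiv q).symm.toAddMonoidHom

theorem invOfBr_brEquiv {T : Type*} [AddCommGroup T] (q : Nat.Primes) (inv' : Recip70.Br q →+ T)
    (z : Recip70.Br q) : invOfBr q inv' (brEquiv q z) = inv' z := by
  show inv' ((brEquiv q).symm (brEquiv q z)) = inv' z
  rw [AddEquiv.symm_apply_apply]

variable {p : ℕ} [Fact p.Prime] (S : Finset Nat.Primes)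

/-- the two local Kummer embeddings `𝔽_p(1) → (ℚ̄_q)ˣ` agree -/
theorem embES_jmu (hpS : pPrime p ∈ S) (ζ : Qbˣ) (hζ : ζ ^ p = 1) (q : ↥S) (a : ZMod p) :
    embES S q (jmu (S := S) hpS ζ hζ a) = Recip70.Kummer.jq q.1 ζ hζ a := by
  haveI : NeZero p := ⟨(Fact.out : p.Prime).ne_zero⟩
  obtain ⟨n, rfl⟩ : ∃ n : ℕ, (n : ZMod p) = a := ⟨a.val, ZMod.natCast_zmod_val a⟩
  rw [Recip70.Kummer.jq_apply, Recip70.Kummer.jq0_natCast]
  show embES S q ((incl (hH := rootsOfUnity_galStable p) (hH' := ES_galStable (S := S))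
    (rootsOfUnity_le_ES' hpS)).hom (muHom ζ hζ (n : ZMod p))) = _
  rw [muHom_natCast, ← Recip70.Kummer.zetaLoc_pow]
  rfl

/-- **helper69's `kummerLoc` is `RouteI.kumq`** -/
theorem brEquiv_kummerLoc (hpS : pPrime p ∈ S) (ζ : Qbˣ) (hζ : ζ ^ p = 1) (q : ↥S)
    (y : (pullLevels (primeLocalToGlobal q.1)).H2 (Rep.res (primeLocalToGlobal q.1) (mu p))) :
    brEquiv q.1 (Recip70.Kummer.kummerLoc q.1 ζ hζ y) = kumq S hpS ζ hζ q y := by
  obtain ⟨c, rfl⟩ := Submodule.Quotient.mk_surjective _ y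
  show (pullLevels (primeLocalToGlobal q.1)).H2π (Om q.1) _ =
    (pullLevels (primeLocalToGlobal q.1)).H2π (Om q.1) _
  congr 1
  apply Subtype.ext
  funext g
  exact (embES_jmu S hpS ζ hζ q _).symm

/-- **`hloc` from `hne`** (helper85) **and (K1)** (helper69). -/
theorem hloc_of_hne {T : Type*} [AddCommGroup T] (hpS : pPrime p ∈ S) {ζ : Qbˣ}
    (hζ : IsPrimitiveRoot ζ p) (inv' : ∀ q : ↥S, Recip70.Br q.1 →+ T)
    (hne : ∀ q : ↥S, ∃ z : Recip70.Br q.1, p • z = 0 ∧ inv' q z ≠ 0) (q : ↥S) :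
    ∃ y, invOfBr q.1 (inv' q) (kumq S hpS ζ hζ.pow_eq_one q y) ≠ 0 := by
  obtain ⟨z, hz, hz0⟩ := hne q
  obtain ⟨b, hb⟩ := Recip70.Kummer.kummerLoc_surjective_torsion q.1 hζ z hz
  refine ⟨b, ?_⟩
  rw [← brEquiv_kummerLoc, invOfBr_brEquiv, hb]
  exact hz0

/-- **ROUTE F with the local inputs in the `Recip70.Br q` vocabulary** (helper85's `inv`/`hne`). -/
theorem reciprocity_of_top_br (hpS : pPrime p ∈ S) {ζ : Qbˣ} (hζ : IsPrimitiveRoot ζ p)
    (inv' : ∀ q : ↥S, Recip70.Br q.1 →+ QZ33.QZ)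
    (hne : ∀ q : ↥S, ∃ z : Recip70.Br q.1, p • z = 0 ∧ inv' q z ≠ 0)
    (hrec : ∀ z : (globalLevels S).H2 (ESRep S), p • z = 0 →
      ∑ q : ↥S, inv' q ((brEquiv q.1).symm (locES S q z)) = 0) :
    Reciprocity p S :=
  reciprocity_of_top S hpS ζ hζ.pow_eq_one (fun q => invOfBr q.1 (inv' q))
    (hloc_of_hne S hpS hζ inv' hne) hrec

/-- **ROUTE I with the local inputs in the `Recip70.Br q` vocabulary.** -/
theorem reciprocity_of_limit_br (hpS : pPrime p ∈ S) {ζ : Qbˣ} (hζ : IsPrimitiveRoot ζ p)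
    (inv' : ∀ q : ↥S, Recip70.Br q.1 →+ QZ33.QZ)
    (hne : ∀ q : ↥S, ∃ z : Recip70.Br q.1, p • z = 0 ∧ inv' q z ≠ 0)
    (invC : (globalLevels S).H2 (GlobalMod94.JS.CSp S) →+ QZ33.QZ)
    (hcompat : ∀ x : (globalLevels S).H2 (GlobalMod94.JS.JSp S),
      invC ((globalLevels S).H2map (GlobalMod94.JS.πCS S).hom.toLinearMap
        (LevelStr.isEquivariant_hom _) x) =
        ∑ q : ↥S, inv' q ((brEquiv q.1).symm (EVq S q x))) :
    Reciprocity p S :=
  reciprocity_of_limit S hpS ζ hζ.pow_eq_one (fun q => invOfBr q.1 (inv' q))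
    (hloc_of_hne S hpS hζ inv' hne) invC hcompat

end Fermat.Agent.S55.Recip15.Local
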