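/-
[P3P4] (helper15, literal owner): ROUTE F from the FINITE LEVELS of the D2 model.

Input in the vocabulary of the 35-GEN owners (helper91 `GlobalInv91.InstFin`, helper79
`CS79.FamilyMaps`, helper99 `LimDesc99.Family`): over the Galois `S`-levels `L` (`GalLev S`),
* a system `IM` of finite-level invariants `H²(Gal(L/ℚ), J_S(L) × I^S(L)) →+ T` compatible with the
  transition maps (`(famM S).InvSystem T`),
* (`hJ`) on the `J_S(L)`-factor it is the sum of the local (limit) invariants `inv q` of the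
  localisations `EV_q ∘ infl`,
* (`hβ`) **(β→) at the base field `ℚ`**: every `p`-primary class of `H²(Gal(L/ℚ), Lˣ)` has, at some
  deeper level `L'`, diagonal image of invariant `0` (`FinLayerHyp.beta_to_desc` with `Γ = Gal(L'/ℚ)`).

Output: `hrec` of `Recip15.RouteI.reciprocity_of_top`, hence `Contract34.Reciprocity p S`.
-/
import Fermat.Agent.S55.Recip15.D2
import Fermat.Agent.S55.Recip15.Local
import Fermat.Agent.S55.CS79.FamilyMaps
import Fermat.Agent.S55.LimDesc99.InvLimit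
import Fermat.Agent.S55.ClassData72

set_option autoImplicit false
set_option linter.style.haveILetI false

open CategoryTheory groupCohomology ExtCitation
open Fermat.Agent.S55.Profin15 Fermat.Agent.S55.Profin15.LevelStr
open Fermat.Agent.S55.Contract34
open Fermat.Agent.S55.GlobalMod94.JS
open Fermat.Agent.S55.ESDiv20 Fermat.Agent.S55.ESRep20
open Fermat.Agent.S55.RecipGlobal20 Fermat.Agent.S55.LevelScalars13
open Fermat.Agent.S55.Recip15.Ev Fermat.Agent.S55.Recip15.RouteI
open Fermat.Agent.S55.CS79.ClassSeq Fermat.Agent.S55.CS79.DivLimit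
open Fermat.Agent.S55.CS79.FamilyCS Fermat.Agent.S55.CS79.FamilyMaps
open Fermat.Agent.S55.CS79.LevelClass
open Fermat.Agent.S55.LimDesc99

namespace Fermat.Agent.S55.Recip15.Family

variable {p : ℕ} (S : Finset Nat.Primes) {T : Type} [AddCommGroup T]

/-- the finite-level first inclusion `J_S(L) ⟶ J_S(L) × I^S(L)` on `H²` -/
noncomputable def inlLev (i : GalLev S) :
    H2 (IdeleVal44.JS i.1 S) →+ H2 (IdeleVal44.JIS i.1 S) :=
  (groupCohomology.map (MonoidHom.id (Idele73.Basic.GalL i.1))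
    (IdeleVal44.prodRep.inl (IdeleVal44.JS i.1 S) (IdeleVal44.IS i.1 S)) 2).hom.toAddMonoidHom

/-- the first inclusion `J_S ⟶ J_S × I^S` -/
noncomputable def inlHom : JSp S ⟶ MS S :=
  Rep.ofHom (Representation.IntertwiningMap.inl ℤ (JSp S).ρ (ISlim S).ρ)

theorem inlHom_apply (x : JSp S) : (inlHom S).hom x = (show MS S from (x, (0 : ISlim S))) := rfl

/-- the first inclusion commutes with the inflations -/
theorem pushH2_inlHom_infl₂ (i : GalLev S) (x : H2 (IdeleVal44.JS i.1 S)) :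
    pushH2 (𝒰 := globalLevels S) (inlHom S) (((famJ S).d i).infl₂ x) =
      ((famM S).d i).infl₂ (inlLev S i x) :=
  Datum.H2map_infl₂ (inlHom S).hom.toLinearMap (LevelStr.isEquivariant_hom (inlHom S))
    ((famJ S).d i) ((famM S).d i)
    (MonoidHom.id (Idele73.Basic.GalL i.1)) (fun _ => rfl)
    (IdeleVal44.prodRep.inl (IdeleVal44.JS i.1 S) (IdeleVal44.IS i.1 S))
    (fun b => by
      show (jIncl S i.1 i.unr b, iIncl S i.1 i.unr 0) = (jIncl S i.1 i.unr b, 0)
      rw [map_zero]) x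

/-- `inlAdd` of `Recip15.D2` is `inlHom` on level `H²` -/
theorem addH2map_inlAdd (x : (globalLevels S).H2 (JSp S)) :
    addH2map (globalLevels S) (D2.inlAdd S) (D2.isAddEquivariant_inlAdd S) x =
      pushH2 (𝒰 := globalLevels S) (inlHom S) x := by
  obtain ⟨c, rfl⟩ := Submodule.Quotient.mk_surjective _ x
  rfl

/-- `diagAdd` of `Recip15.D2` is `δS` on level `H²` -/
theorem addH2map_diagAdd (x : (globalLevels S).H2 (QSxRep S)) :
    addH2map (globalLevels S) (D2.diagAdd S) (D2.isAddEquivariant_diagAdd S) x =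
      pushH2 (𝒰 := globalLevels S) (δS S) x := by
  obtain ⟨c, rfl⟩ := Submodule.Quotient.mk_surjective _ x
  rfl

variable {S}

/-- **(B→) in the limit from (β→) on the finite levels.** -/
theorem hBto_of_family (IM : (famM S).InvSystem T)
    (hβ : ∀ (i : GalLev S) (e : H2 (Idele73.Basic.Lx i.1)) (n : ℕ), p ^ n • e = 0 →
      ∃ (l : GalLev S) (h : l ≤ i),
        IM.inv l (aLev l (Datum.trans₂ ((famK S).mono h) e)) = 0)
    (e : (globalLevels S).H2 (QSxRep S)) (he : ∃ n : ℕ, p ^ n • e = 0) :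
    IM.lim (isSmooth_MS S) (pushH2 (𝒰 := globalLevels S) (δS S) e) = 0 := by
  obtain ⟨n, hn⟩ := he
  obtain ⟨i, x, hx, rfl⟩ :=
    Family.exists_infl₂_eq_of_nsmul_eq_zero (famK S) (QSxRep_isSmooth S) e (p ^ n) hn
  obtain ⟨l, h, hl⟩ := hβ i x n hx
  rw [← Datum.infl₂_trans₂ ((famK S).mono h) x, pushH2_δS_infl₂, Family.InvSystem.lim_infl₂]
  exact hl

/-- **`hrec` of ROUTE F from the finite levels of the D2 model.** -/
theorem hrec_of_family
    (inv : ∀ q : ↥S, (pullLevels (primeLocalToGlobal q.1)).H2 (Om q.1) →+ T)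
    (IM : (famM S).InvSystem T)
    (hJ : ∀ (i : GalLev S) (x : H2 (IdeleVal44.JS i.1 S)),
      IM.inv i (inlLev S i x) = ∑ q : ↥S, inv q (EVq S q (((famJ S).d i).infl₂ x)))
    (hβ : ∀ (i : GalLev S) (e : H2 (Idele73.Basic.Lx i.1)) (n : ℕ), p ^ n • e = 0 →
      ∃ (l : GalLev S) (h : l ≤ i),
        IM.inv l (aLev l (Datum.trans₂ ((famK S).mono h) e)) = 0)
    (z : (globalLevels S).H2 (ESRep S)) (hz : p • z = 0) :
    ∑ q : ↥S, inv q (locES S q z) = 0 := by
  refine D2.hrec_of_Bto S inv (IM.lim (isSmooth_MS S)) ?_ ?_ ?_ z hz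
  · -- the `J_S`-factor
    intro x
    have key : ∀ y : (globalLevels S).H2 (JSp S),
        ((IM.lim (isSmooth_MS S)).comp (pushH2 (𝒰 := globalLevels S) (inlHom S))) y =
        (∑ q : ↥S, (inv q).comp (EVq S q)) y := by
      refine Family.hom_ext_infl₂ (famJ S) (JSp_isSmooth S) _ _ ?_
      intro i x0
      show IM.lim (isSmooth_MS S) (pushH2 (𝒰 := globalLevels S) (inlHom S)
        (((famJ S).d i).infl₂ x0)) = _
      rw [pushH2_inlHom_infl₂, Family.InvSystem.lim_infl₂, hJ, AddMonoidHom.finsetSum_apply]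
      rfl
    have h2 := key x
    rw [AddMonoidHom.finsetSum_apply] at h2
    rw [addH2map_inlAdd]
    exact h2
  · -- `S`-units have trivial divisor
    intro e
    rw [ClassData72.divLim_eq_zero_iff]
    exact (Additive.toMul (show Additive ↥(ES S) from e) : ↥(ES S)).2
  · -- (B→)
    intro e he
    rw [addH2map_diagAdd]
    exact hBto_of_family IM hβ e he

/-- **ROUTE F from the finite levels, local inputs in Profin15 form.** -/
theorem reciprocity_of_family [Fact p.Prime] (hpS : pPrime p ∈ S) (ζ : Qbˣ) (hζ : ζ ^ p = 1)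
    (inv : ∀ q : ↥S, (pullLevels (primeLocalToGlobal q.1)).H2 (Om q.1) →+ QZ33.QZ)
    (hloc : ∀ q : ↥S, ∃ y, inv q (kumq S hpS ζ hζ q y) ≠ 0)
    (IM : (famM S).InvSystem QZ33.QZ)
    (hJ : ∀ (i : GalLev S) (x : H2 (IdeleVal44.JS i.1 S)),
      IM.inv i (inlLev S i x) = ∑ q : ↥S, inv q (EVq S q (((famJ S).d i).infl₂ x)))
    (hβ : ∀ (i : GalLev S) (e : H2 (Idele73.Basic.Lx i.1)) (n : ℕ), p ^ n • e = 0 →
      ∃ (l : GalLev S) (h : l ≤ i),
        IM.inv l (aLev l (Datum.trans₂ ((famK S).mono h) e)) = 0) :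
    Reciprocity p S :=
  reciprocity_of_top S hpS ζ hζ inv hloc (hrec_of_family inv IM hJ hβ)

/-- **ROUTE F from the finite levels, local inputs in the `Recip70.Br q` vocabulary**
(helper85's `inv'`, `hne`). -/
theorem reciprocity_of_family_br [Fact p.Prime] (hpS : pPrime p ∈ S) {ζ : Qbˣ}
    (hζ : IsPrimitiveRoot ζ p)
    (inv' : ∀ q : ↥S, Recip70.Br q.1 →+ QZ33.QZ)
    (hne : ∀ q : ↥S, ∃ z : Recip70.Br q.1, p • z = 0 ∧ inv' q z ≠ 0)
    (IM : (famM S).InvSystem QZ33.QZ)
    (hJ : ∀ (i : GalLev S) (x : H2 (IdeleVal44.JS i.1 S)),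
      IM.inv i (inlLev S i x) =
        ∑ q : ↥S, inv' q ((Local.brEquiv q.1).symm (EVq S q (((famJ S).d i).infl₂ x))))
    (hβ : ∀ (i : GalLev S) (e : H2 (Idele73.Basic.Lx i.1)) (n : ℕ), p ^ n • e = 0 →
      ∃ (l : GalLev S) (h : l ≤ i),
        IM.inv l (aLev l (Datum.trans₂ ((famK S).mono h) e)) = 0) :
    Reciprocity p S :=
  Local.reciprocity_of_top_br S hpS hζ inv' hne
    (hrec_of_family (fun q => Local.invOfBr q.1 (inv' q)) IM hJ hβ)

end Fermat.Agent.S55.Recip15.Family
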