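/-
[P3P4] (helper15, literal owner): ROUTE F from the finite levels of the D2 model, WEAK FORM:
no compatibility of the finite-level invariants with the transition maps is required, and nothing
about their `I^S`-coordinates.

Input over the Galois `S`-levels `L` (`GalLev S`, helper79):
* ANY family of additive maps `invFam L : H²(Gal(L/ℚ), J_S(L) × I^S(L)) →+ T`,
* (`hJ`) on the `J_S(L)`-factor: `invFam L (inl_* x) = ∑_{q ∈ S} inv q (EV_q (infl x))`,
* (`hβ`) **(β→) at the base field `ℚ`, at all deep enough levels**: for a `p`-primary class `e` of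
  `H²(Gal(L/ℚ), Lˣ)` there is a level `L₁ ⊇ L` such that for every level `L' ⊇ L₁` the diagonal
  image of the inflation of `e` to `L'` has invariant `0`
  (`GlobalInv91.FinLayerHyp.beta_to_desc` with `Γ = Gal(L'/ℚ)`).

Output: `hrec` of `Recip15.RouteI.reciprocity_of_top`, hence `Contract34.Reciprocity p S`.
Also: `map_trans₂` — finite-level maps between two families of descent data commute with the
transition maps (generic).
-/
import Fermat.Agent.S55.Recip15.Family

set_option autoImplicit false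
set_option linter.style.haveILetI false

open CategoryTheory groupCohomology ExtCitation
open Fermat.Agent.S55.Profin15 Fermat.Agent.S55.Profin15.LevelStr
open Fermat.Agent.S55.Contract34
open Fermat.Agent.S55.GlobalMod94.JS
open Fermat.Agent.S55.ESDiv20 Fermat.Agent.S55.ESRep20
open Fermat.Agent.S55.RecipGlobal20 Fermat.Agent.S55.LevelScalars13
open Fermat.Agent.S55.Recip15.Ev Fermat.Agent.S55.Recip15.RouteI
open Fermat.Agent.S55.CS79.ClassSeq Fermat.Agent.S55.CS79.DivLimit
open Fermat.Agent.S55.CS79.FamilyCS Fermat.Agent.S55.CS79.FamilyMaps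
open Fermat.Agent.S55.CS79.LevelClass
open Fermat.Agent.S55.LimDesc99

namespace Fermat.Agent.S55.Recip15.Family

/-! ### generic: finite-level maps commute with the transition maps -/

section Generic

universe u

variable {k Γ : Type u} [CommRing k] [Group Γ] {𝒰 : LevelStr Γ} {J C : Rep.{u, u, u} k Γ}
  (π : J →ₗ[k] C) {dJ dJ' : Datum 𝒰 J} {dC dC' : Datum 𝒰 C}
  (hJ : dJ'.p.ker ≤ dJ.p.ker) (hC : dC'.p.ker ≤ dC.p.ker)

/-- **naturality of the transition maps**: for maps `(r, ψ)`, `(r', ψ')` between the data of `J`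
and `C` at two levels, both lifting `π : J → C`. -/
theorem map_trans₂ (r : dC.Q →* dJ.Q) (hr : ∀ g, r (dC.p g) = dJ.p g)
    (ψ : Rep.res r dJ.B ⟶ dC.B) (hψ : ∀ b : dJ.B, dC.e (ψ.hom b) = π (dJ.e b))
    (r' : dC'.Q →* dJ'.Q) (hr' : ∀ g, r' (dC'.p g) = dJ'.p g)
    (ψ' : Rep.res r' dJ'.B ⟶ dC'.B) (hψ' : ∀ b : dJ'.B, dC'.e (ψ'.hom b) = π (dJ'.e b))
    (x : H2 dJ.B) :
    (groupCohomology.map r' ψ' 2).hom (Datum.trans₂ hJ x) =
      Datum.trans₂ hC ((groupCohomology.map r ψ 2).hom x) := by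
  obtain ⟨c, rfl⟩ := ProfinGlobal22.H2π_surjective dJ.B x
  rw [Datum.trans₂_H2π, H2π_comp_map_apply, H2π_comp_map_apply, Datum.trans₂_H2π]
  congr 1
  apply Subtype.ext
  funext ⟨y, y'⟩
  have hq : ∀ y : dC'.Q, Datum.q hJ (r' y) = r (Datum.q hC y) := by
    intro y
    obtain ⟨g, rfl⟩ := dC'.surj y
    rw [hr', Datum.q_p, Datum.q_p, hr]
  have ht : ∀ b : dJ.B, ψ'.hom (Datum.t hJ b) = Datum.t hC (ψ.hom b) := by
    intro b
    apply dC'.desc.inj
    rw [hψ', Datum.e_t, Datum.e_t, hψ]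
  show ψ'.hom (Datum.t hJ (c.1 (Datum.q hJ (r' y), Datum.q hJ (r' y')))) =
    Datum.t hC (ψ.hom (c.1 (r (Datum.q hC y), r (Datum.q hC y'))))
  rw [hq, hq, ht]

end Generic

variable {p : ℕ} (S : Finset Nat.Primes) {T : Type} [AddCommGroup T]

/-- the finite-level diagonal `Lˣ ⟶ J_S(L)` on `H²` -/
noncomputable def sLev (i : GalLev S) :
    H2 (Idele73.Basic.Lx i.1) →+ H2 (IdeleVal44.JS i.1 S) :=
  (groupCohomology.map (MonoidHom.id (Idele73.Basic.GalL i.1))
    (IdeleVal44.diagS i.1 S) 2).hom.toAddMonoidHom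

/-- the finite-level divisor map `Lˣ ⟶ I^S(L)` on `H²` -/
noncomputable def dLev (i : GalLev S) :
    H2 (Idele73.Basic.Lx i.1) →+ H2 (IdeleVal44.IS i.1 S) :=
  (groupCohomology.map (MonoidHom.id (Idele73.Basic.GalL i.1))
    (IdeleVal44.idealMap (unrOutside S i.1 i.unr)) 2).hom.toAddMonoidHom

/-- the finite-level second inclusion `I^S(L) ⟶ J_S(L) × I^S(L)` on `H²` -/
noncomputable def inrLev (i : GalLev S) :
    H2 (IdeleVal44.IS i.1 S) →+ H2 (IdeleVal44.JIS i.1 S) :=
  (groupCohomology.map (MonoidHom.id (Idele73.Basic.GalL i.1))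
    (IdeleVal44.prodRep.inr (IdeleVal44.JS i.1 S) (IdeleVal44.IS i.1 S)) 2).hom.toAddMonoidHom

variable {S}

/-- the finite-level diagonal is the sum of its two coordinates -/
theorem aLev_eq (i : GalLev S) (e : H2 (Idele73.Basic.Lx i.1)) :
    aLev i e = inlLev S i (sLev S i e) + inrLev S i (dLev S i e) := by
  obtain ⟨c, rfl⟩ := ProfinGlobal22.H2π_surjective (Idele73.Basic.Lx i.1) e
  show (groupCohomology.map _ _ 2).hom _ =
    (groupCohomology.map _ _ 2).hom ((groupCohomology.map _ _ 2).hom _) +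
      (groupCohomology.map _ _ 2).hom ((groupCohomology.map _ _ 2).hom _)
  rw [H2π_comp_map_apply, H2π_comp_map_apply, H2π_comp_map_apply, H2π_comp_map_apply,
    H2π_comp_map_apply, ← map_add]
  congr 1
  apply Subtype.ext
  funext ⟨g, g'⟩
  show (((IdeleVal44.diagS i.1 S).hom (c.1 (g, g')),
      (IdeleVal44.idealMap (unrOutside S i.1 i.unr)).hom (c.1 (g, g'))) :
      (IdeleVal44.JS i.1 S) × (IdeleVal44.IS i.1 S)) =
    ((IdeleVal44.diagS i.1 S).hom (c.1 (g, g')), 0) +
      (0, (IdeleVal44.idealMap (unrOutside S i.1 i.unr)).hom (c.1 (g, g')))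
  exact Prod.ext (add_zero _).symm (zero_add _).symm

/-- the divisor map commutes with the inflations -/
theorem pushH2_divLim_infl₂ (i : GalLev S) (x : H2 (Idele73.Basic.Lx i.1)) :
    pushH2 (𝒰 := globalLevels S) (divLim S) (((famK S).d i).infl₂ x) =
      ((famI S).d i).infl₂ (dLev S i x) :=
  Datum.H2map_infl₂ (divLim S).hom.toLinearMap (LevelStr.isEquivariant_hom (divLim S))
    ((famK S).d i) ((famI S).d i) (MonoidHom.id (Idele73.Basic.GalL i.1)) (fun _ => rfl)
    (IdeleVal44.idealMap (unrOutside S i.1 i.unr))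
    (fun b => iIncl_idealMap S i.1 i.unr b) x

/-- the `J_S`-diagonal commutes with the inflations -/
theorem pushH2_diagJ_infl₂ (i : GalLev S) (x : H2 (Idele73.Basic.Lx i.1)) :
    pushH2 (𝒰 := globalLevels S) (diagJ S) (((famK S).d i).infl₂ x) =
      ((famJ S).d i).infl₂ (sLev S i x) :=
  Datum.H2map_infl₂ (diagJ S).hom.toLinearMap (LevelStr.isEquivariant_hom (diagJ S))
    ((famK S).d i) ((famJ S).d i) (MonoidHom.id (Idele73.Basic.GalL i.1)) (fun _ => rfl)
    (IdeleVal44.diagS i.1 S)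
    (fun b => jIncl_diagS S i.1 i.unr b) x

/-- the divisor map commutes with the transition maps -/
theorem dLev_trans₂ {i l : GalLev S} (h : l ≤ i) (x : H2 (Idele73.Basic.Lx i.1)) :
    dLev S l (Datum.trans₂ ((famK S).mono h) x) = Datum.trans₂ ((famI S).mono h) (dLev S i x) :=
  map_trans₂ (divLim S).hom.toLinearMap ((famK S).mono h) ((famI S).mono h)
    (MonoidHom.id (Idele73.Basic.GalL i.1)) (fun _ => rfl)
    (IdeleVal44.idealMap (unrOutside S i.1 i.unr)) (fun b => iIncl_idealMap S i.1 i.unr b)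
    (MonoidHom.id (Idele73.Basic.GalL l.1)) (fun _ => rfl)
    (IdeleVal44.idealMap (unrOutside S l.1 l.unr)) (fun b => iIncl_idealMap S l.1 l.unr b) x

/-- the divisor of a class with values in the `S`-units vanishes in the limit -/
theorem pushH2_divLim_inclES (z : (globalLevels S).H2 (ESRep S)) :
    pushH2 (𝒰 := globalLevels S) (divLim S) (pushH2 (𝒰 := globalLevels S) (D2.inclES S) z) = 0 := by
  obtain ⟨c, rfl⟩ := Submodule.Quotient.mk_surjective _ z
  show (globalLevels S).H2π (ISlim S) _ = 0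
  rw [LevelStr.H2π_eq_zero_iff]
  have h0 : ∀ e : ESRep S, (divLim S).hom ((D2.inclES S).hom e) = 0 := by
    intro e
    rw [ClassData72.divLim_eq_zero_iff]
    exact (Additive.toMul (show Additive ↥(ES S) from e) : ↥(ES S)).2
  convert Submodule.zero_mem ((globalLevels S).B₂ (ISlim S)) using 1
  funext g
  exact h0 _

/-- `EV_q` of the diagonal image of a class with values in the `S`-units is its localisation -/
theorem EVq_pushH2_diagJ_inclES (q : ↥S) (z : (globalLevels S).H2 (ESRep S)) :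
    EVq S q (pushH2 (𝒰 := globalLevels S) (diagJ S)
      (pushH2 (𝒰 := globalLevels S) (D2.inclES S) z)) = locES S q z := by
  rw [← EVq_ιES]
  obtain ⟨c, rfl⟩ := Submodule.Quotient.mk_surjective _ z
  rfl

/-- **`hrec` of ROUTE F from the finite levels of the D2 model, weak form.** -/
theorem hrec_of_levels
    (inv : ∀ q : ↥S, (pullLevels (primeLocalToGlobal q.1)).H2 (Om q.1) →+ T)
    (invFam : ∀ i : GalLev S, H2 (IdeleVal44.JIS i.1 S) →+ T)
    (hJ : ∀ (i : GalLev S) (x : H2 (IdeleVal44.JS i.1 S)),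
      invFam i (inlLev S i x) = ∑ q : ↥S, inv q (EVq S q (((famJ S).d i).infl₂ x)))
    (hβ : ∀ (i : GalLev S) (e : H2 (Idele73.Basic.Lx i.1)) (n : ℕ), p ^ n • e = 0 →
      ∃ l : GalLev S, l ≤ i ∧ ∀ (l' : GalLev S), l' ≤ l → ∀ h : l' ≤ i,
        invFam l' (aLev l' (Datum.trans₂ ((famK S).mono h) e)) = 0)
    (z : (globalLevels S).H2 (ESRep S)) (hz : p • z = 0) :
    ∑ q : ↥S, inv q (locES S q z) = 0 := by
  -- the class in `H²(G_S; Q_Sˣ)` and a finite-level representative
  set z' := pushH2 (𝒰 := globalLevels S) (D2.inclES S) z with hz'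
  have hpz' : p ^ 1 • z' = 0 := by rw [pow_one, hz', ← map_nsmul, hz, map_zero]
  obtain ⟨i, e, he, hez⟩ :=
    Family.exists_infl₂_eq_of_nsmul_eq_zero (famK S) (QSxRep_isSmooth S) z' (p ^ 1) hpz'
  obtain ⟨l, hli, hl⟩ := hβ i e 1 he
  -- the divisor of the representative dies at a deeper level
  have hdiv0 : ((famI S).d l).infl₂ (dLev S l (Datum.trans₂ ((famK S).mono hli) e)) = 0 := by
    rw [← pushH2_divLim_infl₂, Datum.infl₂_trans₂, hez, hz']
    exact pushH2_divLim_inclES z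
  obtain ⟨l', hl'l, hl'0⟩ := ((famI S).presH2 (isSmooth_ISlim S)).ker l _ hdiv0
  have hl'i : l' ≤ i := le_trans hl'l hli
  have h0 := hl l' hl'l hl'i
  -- at the level `l'` the divisor coordinate vanishes
  have hd : dLev S l' (Datum.trans₂ ((famK S).mono hl'i) e) = 0 := by
    rw [← Datum.trans₂_trans₂ ((famK S).mono hli) ((famK S).mono hl'l) e, dLev_trans₂ hl'l]
    exact hl'0
  rw [aLev_eq, hd, map_zero, add_zero, hJ, ← pushH2_diagJ_infl₂, Datum.infl₂_trans₂, hez] at h0
  rw [← h0]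
  exact Finset.sum_congr rfl fun q _ => congrArg (inv q) (EVq_pushH2_diagJ_inclES q z).symm

/-- **ROUTE F from the finite levels (weak form), local inputs in Profin15 form.** -/
theorem reciprocity_of_levels [Fact p.Prime] (hpS : pPrime p ∈ S) (ζ : Qbˣ) (hζ : ζ ^ p = 1)
    (inv : ∀ q : ↥S, (pullLevels (primeLocalToGlobal q.1)).H2 (Om q.1) →+ QZ33.QZ)
    (hloc : ∀ q : ↥S, ∃ y, inv q (kumq S hpS ζ hζ q y) ≠ 0)
    (invFam : ∀ i : GalLev S, H2 (IdeleVal44.JIS i.1 S) →+ QZ33.QZ)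
    (hJ : ∀ (i : GalLev S) (x : H2 (IdeleVal44.JS i.1 S)),
      invFam i (inlLev S i x) = ∑ q : ↥S, inv q (EVq S q (((famJ S).d i).infl₂ x)))
    (hβ : ∀ (i : GalLev S) (e : H2 (Idele73.Basic.Lx i.1)) (n : ℕ), p ^ n • e = 0 →
      ∃ l : GalLev S, l ≤ i ∧ ∀ (l' : GalLev S), l' ≤ l → ∀ h : l' ≤ i,
        invFam l' (aLev l' (Datum.trans₂ ((famK S).mono h) e)) = 0) :
    Reciprocity p S :=
  reciprocity_of_top S hpS ζ hζ inv hloc (hrec_of_levels inv invFam hJ hβ)

/-- **ROUTE F from the finite levels (weak form), local inputs in the `Recip70.Br q` vocabulary**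
(helper85's `inv'`, `hne`). -/
theorem reciprocity_of_levels_br [Fact p.Prime] (hpS : pPrime p ∈ S) {ζ : Qbˣ}
    (hζ : IsPrimitiveRoot ζ p)
    (inv' : ∀ q : ↥S, Recip70.Br q.1 →+ QZ33.QZ)
    (hne : ∀ q : ↥S, ∃ z : Recip70.Br q.1, p • z = 0 ∧ inv' q z ≠ 0)
    (invFam : ∀ i : GalLev S, H2 (IdeleVal44.JIS i.1 S) →+ QZ33.QZ)
    (hJ : ∀ (i : GalLev S) (x : H2 (IdeleVal44.JS i.1 S)),
      invFam i (inlLev S i x) =
        ∑ q : ↥S, inv' q ((Local.brEquiv q.1).symm (EVq S q (((famJ S).d i).infl₂ x))))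
    (hβ : ∀ (i : GalLev S) (e : H2 (Idele73.Basic.Lx i.1)) (n : ℕ), p ^ n • e = 0 →
      ∃ l : GalLev S, l ≤ i ∧ ∀ (l' : GalLev S), l' ≤ l → ∀ h : l' ≤ i,
        invFam l' (aLev l' (Datum.trans₂ ((famK S).mono h) e)) = 0) :
    Reciprocity p S :=
  Local.reciprocity_of_top_br S hpS hζ inv' hne
    (hrec_of_levels (fun q => Local.invOfBr q.1 (inv' q)) invFam hJ hβ)

end Fermat.Agent.S55.Recip15.Family
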