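/-
[P3P4] (helper15, literal owner): the `J_S(L)`-factor identity `hJ` of
`Recip15.Family.reciprocity_of_levels(_br)`, one prime at a time and over the base field `ℚ`:

for a Galois `S`-level `L`, `q ∈ S`, `I` a local system on `(Gal(E/ℚ_q), Eˣ)`, `E = ℚ_q(ι L)`
(helper37 `GSys.Sys`, e.g. helper93's `UnrExt93.locSys q L _`), and `inv` an additive map on the
limit Brauer group `H²(𝒱_q; (ℚ̄_q)ˣ)` such that

  (B)  `I.S ⊤ g = inv [inflation of g to G_q]`        (for cocycles `g` of `Gal(E/ℚ_q)`),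

the coinduced system (helper37 `CoindSys.coindSys`, transported to `Jq q L` by helper37's `JqIsoE`)
on the `q`-coordinate of a class `x ∈ H²(Gal(L/ℚ), J_S(L))` has value `inv (EV_q (infl x))` at the
top: over `ℚ` there is ONE place above `q` (`coindS_top`), the localised cochain is
`(a, b) ↦ c (jE a, jE b)_q (1)`, and `ev_q ∘ jIncl` is evaluation at `1` of the `q`-coordinate.
-/
import Fermat.Agent.S55.Recip15.Family2
import Fermat.Agent.S55.CycloRecip37.TotalSys
import Fermat.Agent.S55.CycloRecip37.SysH2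

set_option autoImplicit false
set_option linter.style.haveILetI false
set_option linter.unusedSectionVars false

open CategoryTheory groupCohomology ExtCitation
open Fermat.Agent.S55.Profin15 Fermat.Agent.S55.Profin15.LevelStr
open Fermat.Agent.S55.GlobalMod94.JS
open Fermat.Agent.S55.RecipGlobal20
open Fermat.Agent.S55.Recip15.Ev Fermat.Agent.S55.Recip15.RouteI
open Fermat.Agent.S55.CS79.FamilyCS Fermat.Agent.S55.CS79.LevelClass
open Fermat.Agent.S55.LimDesc99
open Fermat.Agent.S55.Idele73.Basic Fermat.Agent.S55.Idele73.Local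
open Fermat.Agent.S55.CycloRecip37.GSys Fermat.Agent.S55.CycloRecip37.CoindSys
open Fermat.Agent.S55.CycloRecip37.TotalSys

namespace Fermat.Agent.S55.Recip15.SysJ

/-! ### `JqIsoE` on elements -/

section Iso

variable (q : ℕ) [Fact q.Prime] (L : IntermediateField ℚ Qbar) [Normal ℚ L]

/-- the inverse of `JqIsoE`, on elements -/
theorem eLin_JqIsoE_inv_apply (z : Jq q L) (g : GalL L) :
    eLin q L (((JqIsoE q L).inv.hom z).1 g) = z.1 g := by
  rw [← JqIsoE_hom_apply, JqIsoE_inv_hom]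

end Iso

/-! ### the `q`-coordinate over the base field -/

variable (S : Finset Nat.Primes) (q : ↥S) (i : GalLev S)

local instance factq : Fact ((q.1 : ℕ)).Prime := ⟨q.1.2⟩

local instance findim : FiniteDimensional ℚ i.1 := i.unr.1

/-- the `q`-coordinate of a cochain with values in `J_S(L)` -/
noncomputable def compJ (c : GalL i.1 × GalL i.1 → IdeleVal44.JS i.1 S) :
    GalL i.1 × GalL i.1 → Jq (q.1 : ℕ) i.1 :=
  fun g => IdeleVal44.dsRep.toDS _ (c g) q

/-- the `q`-coordinate of a cochain with values in `J_S(L)`, in the coinduced model -/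
noncomputable def coordJ (c : GalL i.1 × GalL i.1 → IdeleVal44.JS i.1 S) :
    GalL i.1 × GalL i.1 → Rep.coind (jE (q.1 : ℕ) i.1) (EUnits (q.1 : ℕ) i.1) :=
  fun g => (JqIsoE (q.1 : ℕ) i.1).inv.hom (compJ S q i c g)

/-- the localised cochain at the place `x = 1` -/
noncomputable def locJ (c : GalL i.1 × GalL i.1 → IdeleVal44.JS i.1 S) :
    DE (q.1 : ℕ) i.1 × DE (q.1 : ℕ) i.1 → EUnits (q.1 : ℕ) i.1 :=
  loc (jE (q.1 : ℕ) i.1) (EUnits (q.1 : ℕ) i.1) 1 (coordJ S q i c)

theorem isCocOn_compJ (c : cocycles₂ (IdeleVal44.JS i.1 S)) :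
    IsCocOn (Jq (q.1 : ℕ) i.1) ⊤ (compJ S q i c.1) := by
  have hc : IsCocOn (IdeleVal44.JS i.1 S) ⊤ c.1 := fun g _ a _ l _ =>
    (mem_cocycles₂_def c.1).1 c.2 g a l
  exact Fermat.Agent.S55.IdeleCoh54.IdealSys.isCocOn_compC _ hc q

theorem isCocOn_coordJ (c : cocycles₂ (IdeleVal44.JS i.1 S)) :
    IsCocOn (Rep.coind (jE (q.1 : ℕ) i.1) (EUnits (q.1 : ℕ) i.1)) ⊤ (coordJ S q i c.1) := by
  intro g hg h hh l hl
  have hc := isCocOn_compJ S q i c g hg h hh l hl
  have h3 := congrArg (fun y => (JqIsoE (q.1 : ℕ) i.1).inv.hom y) hc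
  simp only [map_sub, map_add, map_zero] at h3
  rw [Rep.hom_comm_apply] at h3
  exact h3

theorem isCocOn_locJ (c : cocycles₂ (IdeleVal44.JS i.1 S)) :
    IsCocOn (EUnits (q.1 : ℕ) i.1) ⊤ (locJ S q i c.1) := by
  have h := loc_isCocOn (j := jE (q.1 : ℕ) i.1) (A := EUnits (q.1 : ℕ) i.1) (1 : GalL i.1)
    (isCocOn_coordJ S q i c)
  rwa [twSub_top] at h

/-- `ev_q` of an element of the finite level is the value at `1` of its `q`-coordinate -/
theorem evq_jIncl (y : IdeleVal44.JS i.1 S) :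
    evq S q (jIncl S i.1 i.unr y) = (IdeleVal44.dsRep.toDS _ y q).1 1 := by
  show (IdeleVal44.dsRep.toDS _ y q).1 (resL i.1 1) = _
  rw [map_one]

/-- **the cocycle identity**: `EV_q` of the inflation of `c` is the inflation of the localised
cochain `locJ c`. -/
theorem EVqZ_inflZ₂_apply (c : cocycles₂ (IdeleVal44.JS i.1 S))
    (x : primeLocalGaloisGroup q.1 × primeLocalGaloisGroup q.1) :
    (EVqZ S q (((famJ S).d i).inflZ₂ c) : _ → Om q.1) x =
      eLin (q.1 : ℕ) i.1 (locJ S q i c.1 (resE (q.1 : ℕ) i.1 x.1, resE (q.1 : ℕ) i.1 x.2)) := by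
  rw [coe_EVqZ, locJ, loc_one_apply, coordJ, eLin_JqIsoE_inv_apply, jE_resE, jE_resE,
    Datum.coe_inflZ₂]
  exact evq_jIncl S q i _

variable {T : Type} [AddCommGroup T]

/-- **the `q`-term of the idele invariant over `ℚ`.**  (B) is the hypothesis `hB`. -/
theorem coindSys_top_eq (I : Sys (EUnits (q.1 : ℕ) i.1) T)
    (inv : (pullLevels (primeLocalToGlobal q.1)).H2 (Om q.1) →+ T)
    (hB : ∀ g : DE (q.1 : ℕ) i.1 × DE (q.1 : ℕ) i.1 → EUnits (q.1 : ℕ) i.1,
      IsCocOn (EUnits (q.1 : ℕ) i.1) ⊤ g →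
      ∀ z : ↥((pullLevels (primeLocalToGlobal q.1)).Z₂ (Om q.1)),
        (∀ x : primeLocalGaloisGroup q.1 × primeLocalGaloisGroup q.1,
          (z : _ → Om q.1) x =
            eLin (q.1 : ℕ) i.1 (g (resE (q.1 : ℕ) i.1 x.1, resE (q.1 : ℕ) i.1 x.2))) →
        I.S ⊤ g = inv ((pullLevels (primeLocalToGlobal q.1)).H2π (Om q.1) z))
    (c : cocycles₂ (IdeleVal44.JS i.1 S)) :
    (coindSys (j := jE (q.1 : ℕ) i.1) I).S ⊤ (coordJ S q i c.1) =
      inv (EVq S q (((famJ S).d i).infl₂ ((H2π (IdeleVal44.JS i.1 S)).hom c))) := by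
  have h1 : ((famJ S).d i).infl₂ ((H2π (IdeleVal44.JS i.1 S)).hom c) =
      (globalLevels S).H2π (JSp S) (((famJ S).d i).inflZ₂ c) :=
    Datum.infl₂_H2π ((famJ S).d i) c
  rw [coindSys_S, coindS_top I (isCocOn_coordJ S q i c), h1, EVq_H2π]
  exact hB (locJ S q i c.1) (isCocOn_locJ S q i c) _ (EVqZ_inflZ₂_apply S q i c)

end Fermat.Agent.S55.Recip15.SysJ
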