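/-
[P3P4] (helper15, literal owner): the family `invFam` of finite-level invariants of
`Recip15.Family.reciprocity_of_levels(_br)` is helper37's TOTAL SYSTEM
(`CycloRecip37.TotalSys.totalSys`) at the ambient group, and its `J_S(L)`-factor identity `hJ`:

  `invFam i (inl x) = ∑_{q ∈ S} e_q (inv_q (EV_q (infl x)))`

for ANY local systems `I i q` on `(Gal(E_q/ℚ_q), E_qˣ)` that agree at the top with limit
invariants `inv q` (hypothesis `hB` = request (B), helper93 `UnrExt93.locSys_top_eq_omInv`).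
-/
import Fermat.Agent.S55.Recip15.SysJ

set_option autoImplicit false
set_option linter.style.haveILetI false
set_option linter.unusedSectionVars false

open CategoryTheory groupCohomology ExtCitation
open Fermat.Agent.S55.Profin15 Fermat.Agent.S55.Profin15.LevelStr
open Fermat.Agent.S55.GlobalMod94.JS
open Fermat.Agent.S55.RecipGlobal20
open Fermat.Agent.S55.Recip15.Ev Fermat.Agent.S55.Recip15.RouteI
open Fermat.Agent.S55.CS79.FamilyCS Fermat.Agent.S55.CS79.LevelClass
open Fermat.Agent.S55.LimDesc99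
open Fermat.Agent.S55.Idele73.Basic Fermat.Agent.S55.Idele73.Local
open Fermat.Agent.S55.CycloRecip37.GSys Fermat.Agent.S55.CycloRecip37.CoindSys
open Fermat.Agent.S55.CycloRecip37.TotalSys Fermat.Agent.S55.CycloRecip37
open Fermat.Agent.S55.IdeleCoh54.IdealSys
open Fermat.Agent.S55.Recip15.Family Fermat.Agent.S55.Recip15.SysJ

namespace Fermat.Agent.S55.Recip15.HJ

variable (S : Finset Nat.Primes) {T : Type} [AddCommGroup T]

attribute [local instance] Fermat.Agent.S55.Recip15.SysJ.findim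

/-- **the finite-level invariants**: helper37's total system at the ambient group -/
noncomputable def invFam
    (I : ∀ (i : GalLev S) (q : Nat.Primes), Sys (EUnits (q : ℕ) i.1) T)
    (e : Nat.Primes → (T →+ T)) (θ : ℚ →+ T) (hθ : θ 1 = 0) (i : GalLev S) :
    H2 (IdeleVal44.JIS i.1 S) →+ T :=
  SysH2.toH2top (totalSys i.1 S (I i) e θ hθ)

/-- **`hJ`**: on the `J_S(L)`-factor the total invariant is the sum of the (rescaled) local limit
invariants of the localisations. -/
theorem invFam_inlLev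
    (I : ∀ (i : GalLev S) (q : Nat.Primes), Sys (EUnits (q : ℕ) i.1) T)
    (e : Nat.Primes → (T →+ T)) (θ : ℚ →+ T) (hθ : θ 1 = 0)
    (inv : ∀ q : ↥S, (pullLevels (primeLocalToGlobal q.1)).H2 (Om q.1) →+ T)
    (hB : ∀ (i : GalLev S) (q : ↥S)
      (g : DE (q.1 : ℕ) i.1 × DE (q.1 : ℕ) i.1 → EUnits (q.1 : ℕ) i.1),
      IsCocOn (EUnits (q.1 : ℕ) i.1) ⊤ g →
      ∀ z : ↥((pullLevels (primeLocalToGlobal q.1)).Z₂ (Om q.1)),
        (∀ x : primeLocalGaloisGroup q.1 × primeLocalGaloisGroup q.1,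
          (z : _ → Om q.1) x =
            eLin (q.1 : ℕ) i.1 (g (resE (q.1 : ℕ) i.1 x.1, resE (q.1 : ℕ) i.1 x.2))) →
        (I i q.1).S ⊤ g = inv q ((pullLevels (primeLocalToGlobal q.1)).H2π (Om q.1) z))
    (i : GalLev S) (x : H2 (IdeleVal44.JS i.1 S)) :
    invFam S I e θ hθ i (inlLev S i x) =
      ∑ q : ↥S, e q.1 (inv q (EVq S q (((famJ S).d i).infl₂ x))) := by
  obtain ⟨c, rfl⟩ := Fermat.Agent.S55.ProfinGlobal22.H2π_surjective (IdeleVal44.JS i.1 S) x
  have h0 : invFam S I e θ hθ i (inlLev S i ((H2π (IdeleVal44.JS i.1 S)).hom c)) =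
      (totalSys i.1 S (I i) e θ hθ).S ⊤
        (fun g => (IdeleVal44.prodRep.inl (IdeleVal44.JS i.1 S) (IdeleVal44.IS i.1 S)).hom
          (c.1 g)) := by
    show SysH2.toH2top (totalSys i.1 S (I i) e θ hθ)
      ((Fermat.Agent.S55.GlobalInv91.push₂
        (IdeleVal44.prodRep.inl (IdeleVal44.JS i.1 S) (IdeleVal44.IS i.1 S))).hom
          ((H2π (IdeleVal44.JS i.1 S)).hom c)) = _
    rw [SysH2.toH2top_push₂, SysH2.toH2top_H2π]
    rfl
  rw [h0]
  show (jsSys i.1 S (I i) e).S ⊤ c.1 + (idealSys i.1 S θ hθ).S ⊤ 0 = _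
  rw [Sys.zero, add_zero, jsSys, dsSys_S, finsum_eq_sum_of_fintype]
  refine Finset.sum_congr rfl fun q _ => ?_
  show e q.1 ((coindSys (j := jE (q.1 : ℕ) i.1) (I i q.1)).S ⊤ (coordJ S q i c.1)) = _
  rw [coindSys_top_eq S q i (I i q.1) (inv q) (hB i q) c]

end Fermat.Agent.S55.Recip15.HJ
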