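/-
[P3P4] (helper15, literal owner): **P3P4 FROM `hF` ALONE.**

The concrete finite-level invariants are helper37's total system
`CycloRecip37.TotalSys.totalSys L S (fun q => Uncond.locSysU q L) e θ hθ` at the ambient group
(`invFamU`), for ANY twist `e : Nat.Primes → (QZ →+ QZ)` by injective endomorphisms (the `p`-adic
unit of leaf 34 at `p`, the identity elsewhere) and ANY `θ : ℚ →+ QZ` with `θ 1 = 0`.  The local
inputs of `RecipTop20.reciprocity_of_top_levels_br` are discharged here:

* `inv' q := e q ∘ RecipLocal85.brInv q`, `hne` from `brInv_hne` + injectivity of `e q`;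
* `hJ` from `Recip15.HJ.invFam_inlLev` + request (B) `RecipLocal85.locSys_top_eq_omInv`.

What remains is `hF` (helper20 `RecipTop20`: `FinLayerHyp` at `H = ⊤` + the J-split of the class at
all deep enough Galois `S`-levels), stated for `invFamU`.
-/
import Fermat.Agent.S55.Recip15.HJ
import Fermat.Agent.S55.RecipTop20
import Fermat.Agent.S55.RecipLocal85d
import Fermat.Agent.S55.CycloRecip37.Uncond

set_option autoImplicit false
set_option linter.style.haveILetI false
set_option linter.unusedSectionVars false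

open CategoryTheory groupCohomology ExtCitation
open Fermat.Agent.S55.Profin15 Fermat.Agent.S55.Profin15.LevelStr
open Fermat.Agent.S55.Contract34
open Fermat.Agent.S55.GlobalMod94.JS
open Fermat.Agent.S55.RecipGlobal20
open Fermat.Agent.S55.Recip15.Ev Fermat.Agent.S55.Recip15.RouteI
open Fermat.Agent.S55.CS79.FamilyCS Fermat.Agent.S55.CS79.FamilyMaps
open Fermat.Agent.S55.CS79.LevelClass
open Fermat.Agent.S55.LimDesc99
open Fermat.Agent.S55.Idele73.Basic Fermat.Agent.S55.Idele73.Local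
open Fermat.Agent.S55.CycloRecip37.GSys
open Fermat.Agent.S55.CycloRecip37
open Fermat.Agent.S55.QZ33
open Fermat.Agent.S55.GlobalInv91
open Fermat.Agent.S55.CLDescent35.Hilbert90
open Fermat.Agent.S55.Recip15.Family Fermat.Agent.S55.Recip15.SysJ

namespace Fermat.Agent.S55.Recip15.Inst

variable (S : Finset Nat.Primes)

attribute [local instance] Fermat.Agent.S55.Recip15.SysJ.findim

/-- the unconditional local systems (helper93 / helper37 `Uncond.locSysU`), level by level -/
noncomputable def locFam (i : GalLev S) (q : Nat.Primes) : Sys (EUnits (q : ℕ) i.1) QZ :=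
  Uncond.locSysU q i.1

/-- **the concrete finite-level invariants**: helper37's total system of the unconditional local
systems, twisted by `e`, at the ambient group. -/
noncomputable def invFamU (e : Nat.Primes → (QZ →+ QZ)) (θ : ℚ →+ QZ) (hθ : θ 1 = 0)
    (i : GalLev S) : H2 (IdeleVal44.JIS i.1 S) →+ QZ :=
  HJ.invFam S (locFam S) e θ hθ i

theorem invFamU_eq (e : Nat.Primes → (QZ →+ QZ)) (θ : ℚ →+ QZ) (hθ : θ 1 = 0) (i : GalLev S) :
    invFamU S e θ hθ i =
      SysH2.toH2top (TotalSys.totalSys i.1 S (fun q => Uncond.locSysU q i.1) e θ hθ) := rfl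

/-- the twisted local invariant at `q`, in helper70's vocabulary -/
noncomputable def invTw (e : Nat.Primes → (QZ →+ QZ)) (q : ↥S) : Recip70.Br q.1 →+ QZ :=
  (e q.1).comp (RecipLocal85.brInv q.1)

/-- **`hne`** for the twisted local invariants -/
theorem hne_invTw {p : ℕ} [Fact p.Prime] (e : Nat.Primes → (QZ →+ QZ))
    (he : ∀ q, Function.Injective (e q)) (q : ↥S) :
    ∃ z : Recip70.Br q.1, p • z = 0 ∧ invTw S e q z ≠ 0 := by
  obtain ⟨z, hz, hne⟩ := RecipLocal85.brInv_hne q.1 p
  refine ⟨z, hz, fun h0 => hne ?_⟩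
  apply he q.1
  rw [map_zero]
  exact h0

/-- **`hJ`** for the concrete invariants -/
theorem hJ_invFamU (e : Nat.Primes → (QZ →+ QZ)) (θ : ℚ →+ QZ) (hθ : θ 1 = 0)
    (i : GalLev S) (x : H2 (IdeleVal44.JS i.1 S)) :
    invFamU S e θ hθ i (inlLev S i x) =
      ∑ q : ↥S, invTw S e q ((Local.brEquiv q.1).symm
        (EVq S q (((famJ S).d i).infl₂ x))) := by
  rw [invFamU, HJ.invFam_inlLev S (locFam S) e θ hθ (fun q => RecipLocal85.omInv q.1)
    (fun i q g hg z hz =>
      RecipLocal85.locSys_top_eq_omInv q.1 i.1 (KummerBr95.localPres q.1) g hg z hz) i x]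
  refine Finset.sum_congr rfl fun q _ => ?_
  show _ = e q.1 (RecipLocal85.brInv q.1 ((Local.brEquiv q.1).symm _))
  rw [RecipLocal85.brInv_eq_omInv]
  congr 2
  exact ((Local.brEquiv q.1).apply_symm_apply _).symm

/-- **P3P4 from `hF` alone** (helper20's `RecipTop20` form: `FinLayerHyp` at `H = ⊤` and the
J-split of the class, at all deep enough Galois `S`-levels, for the concrete invariants
`invFamU S e θ hθ`). -/
theorem reciprocity_of_hF {p : ℕ} [Fact p.Prime] (hpS : pPrime p ∈ S)
    {ζ : Fermat.Agent.S55.ESDiv20.Qbˣ} (hζ : IsPrimitiveRoot ζ p)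
    (e : Nat.Primes → (QZ →+ QZ)) (he : ∀ q, Function.Injective (e q))
    (θ : ℚ →+ QZ) (hθ : θ 1 = 0)
    (hF : ∀ (i : GalLev S) (c : H2 (Lx i.1)) (n : ℕ), p ^ n • c = 0 →
      ∃ l : GalLev S, l ≤ i ∧ ∀ l' : GalLev S, l' ≤ l → ∀ h : l' ≤ i,
      ∃ (m : ℕ) (χ : ↥(⊤ : Subgroup (GalL l'.1)) →* Multiplicative (ZMod (p ^ m))),
        FinLayerHyp (sesRes (unrOutside S l'.1 l'.unr) ⊤) p m χ
          ((invFamU S e θ hθ l').comp (RecipTop20.topMap (IdeleVal44.JIS l'.1 S))) ∧
        ∀ y : H2 (Rep.res (⊤ : Subgroup (GalL l'.1)).subtype (IdeleVal44.JIS l'.1 S)),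
          RecipTop20.topMap (IdeleVal44.JIS l'.1 S) y =
              aLev l' (Datum.trans₂ ((famK S).mono h) c) →
            (res₂ (Rep.res (⊤ : Subgroup (GalL l'.1)).subtype (IdeleVal44.JIS l'.1 S))
              χ.ker).hom y = 0) :
    Reciprocity p S :=
  RecipTop20.reciprocity_of_top_levels_br hpS hζ (invTw S e) (hne_invTw S e he)
    (invFamU S e θ hθ) (hJ_invFamU S e θ hθ) hF

/-- **P3P4 from the binder `hβ`** of `Recip15.Family.reciprocity_of_levels_br` for the concrete
invariants. -/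
theorem reciprocity_of_hβ {p : ℕ} [Fact p.Prime] (hpS : pPrime p ∈ S)
    {ζ : Fermat.Agent.S55.ESDiv20.Qbˣ} (hζ : IsPrimitiveRoot ζ p)
    (e : Nat.Primes → (QZ →+ QZ)) (he : ∀ q, Function.Injective (e q))
    (θ : ℚ →+ QZ) (hθ : θ 1 = 0)
    (hβ : ∀ (i : GalLev S) (c : H2 (Lx i.1)) (n : ℕ), p ^ n • c = 0 →
      ∃ l : GalLev S, l ≤ i ∧ ∀ l' : GalLev S, l' ≤ l → ∀ h : l' ≤ i,
        invFamU S e θ hθ l' (aLev l' (Datum.trans₂ ((famK S).mono h) c)) = 0) :
    Reciprocity p S :=
  reciprocity_of_levels_br hpS hζ (invTw S e) (hne_invTw S e he)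
    (invFamU S e θ hθ) (hJ_invFamU S e θ hθ) hβ

end Fermat.Agent.S55.Recip15.Inst
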