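/-
[P3P4] (helper15): the hypothesis bundle `RecipLevel20.OmSmooth S` of helper20's ROUTE F endpoint
(`(ℚ̄_q)ˣ` is smooth for the full local levels), from helper69's Krasner-based
`Recip70.Kummer.om_isSmooth`.
-/
import Fermat.Agent.S55.RecipLevel20
import Fermat.Agent.S55.Recip70.Kummer

set_option autoImplicit false

open ExtCitation
open Fermat.Agent.S55.Profin15

namespace Fermat.Agent.S55.Recip15

/-- `(ℚ̄_q)ˣ` is smooth for the full local level structure (`Profin15` form) -/
theorem om_isSmooth (q : Nat.Primes) :
    (pullLevels (primeLocalToGlobal q)).IsSmooth (RecipGlobal20.Om q) :=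
  fun u => Recip70.Kummer.om_isSmooth q u

/-- **`OmSmooth S`** (binder `hΩ` of `RecipLevel20.reciprocity_of_invSystem`) -/
theorem omSmooth (S : Finset Nat.Primes) : RecipLevel20.OmSmooth S :=
  fun q => om_isSmooth q.1

end Fermat.Agent.S55.Recip15
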