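/-
[P3P4] (helper15, literal owner): the finite-layer form of the global input of P3P4 in the SAME
shape as the binder `hβto` of helper99's `LimDesc99.hasFormationDatum_of_layers`
(= conclusion (β→) of 35-GEN on the layers of `E_S → J_S`), at the base field `ℚ`
(`𝒰 = globalLevels S` on `G_ℚ` itself, no restriction to an open subgroup):

* `EVL S q U : H²(G_ℚ ⧸ U, J_S^U) →+ H²(G_q ⧸ r_q⁻¹U, ((ℚ̄_q)ˣ)^{r_q⁻¹U})`  (finite-level `EV_q`),
* `EVL_pushLayer : EVL S q U ((ι_{E_S})_* y) = RecipLevel20.locL … q U y`,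
* `invJU S I U := ∑_{q ∈ S} (I q).inv (levq q U) ∘ EVL S q U`  (the finite-layer idele invariant),
* `lim_EVq_infl₂`  (`∑_q (I q).lim (EV_q (infl x)) = invJU U x`: the binder `hinvJ`),
* **`FR_of_hβto`** : `hβto` (for this `invJU`) ⟹ helper20's `(FR)`,
* **`reciprocity_of_hβto`** : the literal plug from `I`, `hne` and `hβto`.
-/
import Fermat.Agent.S55.RecipLevel20
import Fermat.Agent.S55.Recip15.OmSmooth
import Fermat.Agent.S55.Recip15.RouteI
import Fermat.Agent.S55.LevelColim49.Nat

set_option autoImplicit false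
set_option linter.style.haveILetI false

open CategoryTheory groupCohomology ExtCitation
open Fermat.Agent.S55.Profin15 Fermat.Agent.S55.Profin15.LevelStr
open Fermat.Agent.S55.LevelColim49 Fermat.Agent.S55.LevelScalars13
open Fermat.Agent.S55.Contract34
open Fermat.Agent.S55.GlobalMod94.JS
open Fermat.Agent.S55.ESDiv20 Fermat.Agent.S55.ESRep20
open Fermat.Agent.S55.RecipGlobal20 Fermat.Agent.S55.RecipLevel20
open Fermat.Agent.S55.LimDesc99 Fermat.Agent.S55.QZ33
open Fermat.Agent.S55.Recip15.Ev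

noncomputable section

namespace Fermat.Agent.S55.Recip15.Layer

variable {p : ℕ} (S : Finset Nat.Primes)

/-- **finite-level `EV_q`** on the layers of `J_S` -/
def EVL (q : ↥S) (U : Subgroup GQ) [U.Normal] :
    H2 (layer (JSp S) U) →+ H2 (layer (OmS q) (U.comap (primeLocalToGlobal q.1))) :=
  (locLayer₂ (primeLocalToGlobal q.1) (JSp S) (OmS q) (repLin (evq S q)) (evq_ρ S q)
    (le_refl _)).toAddMonoidHom

/-- `EV_q ∘ (ι_{E_S})_* = loc_q` on the finite layers -/
theorem EVL_pushLayer (q : ↥S) (U : Subgroup GQ) [U.Normal] (y : H2 (layer (ESRep S) U)) :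
    EVL S q U ((pushLayer (ιES S) U 2).hom y) = locL OmS embS hembS q U y := by
  induction y using H2_induction_on with | @h c =>
  rw [H2π_comp_map_apply]
  show locLayer₂ (primeLocalToGlobal q.1) (JSp S) (OmS q) (repLin (evq S q)) (evq_ρ S q)
      (le_refl _) ((H2π (layer (JSp S) U)).hom _) =
    locLayer₂ (primeLocalToGlobal q.1) (ESRep S) (OmS q) (repLin (embS q)) (hembS q)
      (le_refl _) ((H2π (layer (ESRep S) U)).hom c)
  rw [locLayer₂_H2π, locLayer₂_H2π]
  congr 1

/-- finite-level `EV_q` commutes with the transition maps -/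
theorem trans₂_EVL (q : ↥S) {U V : Subgroup GQ} [U.Normal] [V.Normal] (hVU : V ≤ U)
    (y : H2 (layer (JSp S) U)) :
    trans₂ (OmS q) (Subgroup.comap_mono hVU) (EVL S q U y) = EVL S q V (trans₂ (JSp S) hVU y) :=
  trans₂_locLayer₂ (primeLocalToGlobal q.1) (JSp S) (OmS q) (repLin (evq S q)) (evq_ρ S q)
    (le_refl _) (le_refl _) hVU (Subgroup.comap_mono hVU) y

/-- `EV_q` commutes with inflation from the finite layers -/
theorem EVq_infl₂ (q : ↥S) {U : Subgroup GQ} [U.Normal] (hU : U ∈ (globalLevels S).levels)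
    (y : H2 (layer (JSp S) U)) :
    RouteI.EVq S q (infl₂ (JSp S) (globalLevels S) hU y) =
      infl₂ (OmS q) (pullLevels (primeLocalToGlobal q.1)) (comap_mem_pullLevels q.1 hU)
        (EVL S q U y) := by
  rw [EVL, LinearMap.toAddMonoidHom_coe,
    infl₂_locLayer₂ (primeLocalToGlobal q.1) (JSp S) (OmS q) (repLin (evq S q)) (evq_ρ S q)
      (le_refl _) (globalLevels S) (pullLevels (primeLocalToGlobal q.1))
      (isContinuous_pullLevels S (primeLocalToGlobal q.1)) hU (comap_mem_pullLevels q.1 hU) y]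
  rfl

variable (I : ∀ q : ↥S, InvSystem (pullLevels (primeLocalToGlobal q.1)) (OmS q) QZ)

/-- **the finite-layer idele invariant at the base field `ℚ`** -/
def invJU (U : Lev (globalLevels S)) : H2 (layer (JSp S) U.1) →+ QZ :=
  ∑ q : ↥S, ((I q).inv (levq q U.2)).comp (EVL S q U.1)

theorem invJU_apply (U : Lev (globalLevels S)) (x : H2 (layer (JSp S) U.1)) :
    invJU S I U x = ∑ q : ↥S, (I q).inv (levq q U.2) (EVL S q U.1 x) := by
  rw [invJU, AddMonoidHom.finset_sum_apply]
  rfl

/-- the binder `hinvJ` : the limit idele invariant `∑_q (I q).lim ∘ EV_q` is computed on the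
layers by `invJU` -/
theorem lim_EVq_infl₂ (U : Lev (globalLevels S)) (x : H2 (layer (JSp S) U.1)) :
    ∑ q : ↥S, (I q).lim (om_isSmooth q.1) (RouteI.EVq S q (infl₂ (JSp S) (globalLevels S) U.2 x)) =
      invJU S I U x := by
  rw [invJU_apply]
  refine Finset.sum_congr rfl fun q _ => ?_
  rw [EVq_infl₂]
  exact (I q).lim_infl₂ (om_isSmooth q.1) (levq q U.2) _

/-- `invJU` is compatible with the transition maps -/
theorem invJU_trans₂ {U V : Lev (globalLevels S)} (h : V ≤ U) (x : H2 (layer (JSp S) U.1)) :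
    invJU S I V (trans₂ (JSp S) (show V.1 ≤ U.1 from h) x) = invJU S I U x := by
  rw [invJU_apply, invJU_apply]
  refine Finset.sum_congr rfl fun q _ => ?_
  rw [← trans₂_EVL S q (show V.1 ≤ U.1 from h) x]
  exact (I q).inv_trans (U := levq q U.2) (V := levq q V.2)
    (Subgroup.comap_mono (show V.1 ≤ U.1 from h)) _

/-- **`(FR)` of `RecipLevel20.reciprocity_of_invSystem` from (β→) in the shape of the binder
`hβto` of `LimDesc99.hasFormationDatum_of_layers`**, at the base `ℚ`, for `p`-torsion classes. -/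
theorem FR_of_hβto
    (hβto : ∀ (U : Lev (globalLevels S)) (e : H2 (layer (ESRep S) U.1)), p • e = 0 →
      ∃ (V : Lev (globalLevels S)) (h : V ≤ U),
        invJU S I V ((pushLayer (ιES S) V.1 2).hom
          (trans₂ (ESRep S) (show V.1 ≤ U.1 from h) e)) = 0)
    (U : Subgroup GQ) [U.Normal] (hU : U ∈ (globalLevels S).levels)
    (y : H2 (layer (ESRep S) U)) (hy : p • y = 0) :
    ∃ (V : Subgroup GQ) (_ : V.Normal) (hV : V ∈ (globalLevels S).levels) (hVU : V ≤ U),
      ∑ q : ↥S, (I q).inv (levq q hV)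
        (locL OmS embS hembS q V (trans₂ (ESRep S) hVU y)) = 0 := by
  obtain ⟨V, h, hV⟩ := hβto ⟨U, hU⟩ y hy
  refine ⟨V.1, (globalLevels S).normal V.1 V.2, V.2, h, ?_⟩
  rw [invJU_apply] at hV
  rw [← hV]
  refine Finset.sum_congr rfl fun q _ => ?_
  rw [EVL_pushLayer]

/-- **P3P4 from the local invariant systems, `hne` and (β→) on the layers of `E_S → J_S`.** -/
theorem reciprocity_of_hβto [Fact p.Prime] (hpS : pPrime p ∈ S) (ζ : Qbˣ) (hζ : ζ ^ p = 1)
    (hne : ∀ q : ↥S, ∃ y, (I q).lim (omSmooth S q) (kumS hpS ζ hζ q y) ≠ 0)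
    (hβto : ∀ (U : Lev (globalLevels S)) (e : H2 (layer (ESRep S) U.1)), p • e = 0 →
      ∃ (V : Lev (globalLevels S)) (h : V ≤ U),
        invJU S I V ((pushLayer (ιES S) V.1 2).hom
          (trans₂ (ESRep S) (show V.1 ≤ U.1 from h) e)) = 0) :
    Reciprocity p S :=
  reciprocity_of_invSystem hpS ζ hζ (omSmooth S) I hne
    (fun U _ hU y hy => FR_of_hβto S I hβto U hU y hy)

end Fermat.Agent.S55.Recip15.Layer
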