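/-
[P3P4] (helper15): a LIMIT local invariant `inv q : H²(𝒱_q; (ℚ̄_q)ˣ) →+ ℚ/ℤ` (the form in which
helper28's 22b / helper85 deliver it) as a `LimDesc99.InvSystem` (`inv U := inv ∘ infl₂`), and the
P3P4 endpoint `Recip15.Layer.reciprocity_of_hβto` restated for limit invariants.
-/
import Fermat.Agent.S55.Recip15.Layer
import Fermat.Agent.S55.Recip15.Local

set_option autoImplicit false
set_option linter.style.haveILetI false

open CategoryTheory groupCohomology ExtCitation
open Fermat.Agent.S55.Profin15 Fermat.Agent.S55.Profin15.LevelStr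
open Fermat.Agent.S55.LevelColim49
open Fermat.Agent.S55.Contract34
open Fermat.Agent.S55.GlobalMod94.JS
open Fermat.Agent.S55.ESDiv20 Fermat.Agent.S55.ESRep20
open Fermat.Agent.S55.RecipGlobal20 Fermat.Agent.S55.RecipLevel20
open Fermat.Agent.S55.LimDesc99 Fermat.Agent.S55.QZ33

noncomputable section

namespace Fermat.Agent.S55.Recip15

section Generic

universe u

variable {k G : Type u} [CommRing k] [Group G] {𝒰 : LevelStr G} {A : Rep.{u, u, u} k G}
  {T : Type*} [AddCommGroup T]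

/-- the finite-layer system of a homomorphism on level cohomology: `inv U := F ∘ infl₂` -/
def invSystemOfHom (F : 𝒰.H2 A →+ T) : InvSystem 𝒰 A T where
  inv U := F.comp (infl₂ A 𝒰 U.2).toAddMonoidHom
  inv_trans {U V} h x := by
    show F (infl₂ A 𝒰 V.2 (trans₂ A (show V.1 ≤ U.1 from h) x)) = F (infl₂ A 𝒰 U.2 x)
    rw [infl₂_trans₂ A 𝒰 U.2 V.2 (show V.1 ≤ U.1 from h) x]

theorem invSystemOfHom_inv (F : 𝒰.H2 A →+ T) (U : Lev 𝒰) (x : H2 (layer A U.1)) :
    (invSystemOfHom F).inv U x = F (infl₂ A 𝒰 U.2 x) := rfl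

/-- its limit is the homomorphism itself -/
theorem invSystemOfHom_lim (hA : 𝒰.IsSmooth A) (F : 𝒰.H2 A →+ T) :
    (invSystemOfHom F).lim hA = F :=
  ((invSystemOfHom F).lim_unique hA F (fun _ _ => rfl)).symm

end Generic

variable {p : ℕ} (S : Finset Nat.Primes)

/-- **P3P4 from LIMIT local invariants `inv q`, a `p`-torsion class of nonzero invariant at each
`q ∈ S`, and (β→) on the layers of `E_S → J_S` at the base `ℚ`.** -/
theorem reciprocity_of_hβto_inv [Fact p.Prime] (hpS : pPrime p ∈ S) {ζ : Qbˣ}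
    (hζ : IsPrimitiveRoot ζ p)
    (inv : ∀ q : ↥S, (pullLevels (primeLocalToGlobal q.1)).H2 (OmS q) →+ QZ)
    (hne : ∀ q : ↥S, ∃ z : (pullLevels (primeLocalToGlobal q.1)).H2 (OmS q),
      p • z = 0 ∧ inv q z ≠ 0)
    (hβto : ∀ (U : Lev (globalLevels S)) (e : H2 (layer (ESRep S) U.1)), p • e = 0 →
      ∃ (V : Lev (globalLevels S)) (h : V ≤ U),
        Layer.invJU S (fun q => invSystemOfHom (inv q)) V ((pushLayer (ιES S) V.1 2).hom
          (trans₂ (ESRep S) (show V.1 ≤ U.1 from h) e)) = 0) :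
    Reciprocity p S := by
  refine Layer.reciprocity_of_hβto S (fun q => invSystemOfHom (inv q)) hpS ζ hζ.pow_eq_one
    (fun q => ?_) hβto
  rw [invSystemOfHom_lim]
  obtain ⟨z, hz, hz0⟩ := hne q
  -- `z` is a Kummer class (helper69's (K1) through `Recip15.Local.brEquiv`)
  obtain ⟨b, hb⟩ := Recip70.Kummer.kummerLoc_surjective_torsion q.1 hζ ((Local.brEquiv q.1).symm z)
    (by rw [← map_nsmul, hz, map_zero])
  refine ⟨b, ?_⟩
  have h1 : kumS hpS ζ hζ.pow_eq_one q b = z := by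
    have := Local.brEquiv_kummerLoc S hpS ζ hζ.pow_eq_one q b
    rw [hb, AddEquiv.apply_symm_apply] at this
    exact this.symm
  rw [h1]
  exact hz0

/-- the same with the local invariants on helper70/helper85's `Recip70.Br q` -/
theorem reciprocity_of_hβto_br [Fact p.Prime] (hpS : pPrime p ∈ S) {ζ : Qbˣ}
    (hζ : IsPrimitiveRoot ζ p)
    (inv' : ∀ q : ↥S, Recip70.Br q.1 →+ QZ)
    (hne : ∀ q : ↥S, ∃ z : Recip70.Br q.1, p • z = 0 ∧ inv' q z ≠ 0)
    (hβto : ∀ (U : Lev (globalLevels S)) (e : H2 (layer (ESRep S) U.1)), p • e = 0 →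
      ∃ (V : Lev (globalLevels S)) (h : V ≤ U),
        Layer.invJU S (fun q => invSystemOfHom (Local.invOfBr q.1 (inv' q))) V
          ((pushLayer (ιES S) V.1 2).hom
            (trans₂ (ESRep S) (show V.1 ≤ U.1 from h) e)) = 0) :
    Reciprocity p S := by
  refine reciprocity_of_hβto_inv S hpS hζ (fun q => Local.invOfBr q.1 (inv' q)) (fun q => ?_) hβto
  obtain ⟨z, hz, hz0⟩ := hne q
  refine ⟨Local.brEquiv q.1 z, by rw [← map_nsmul, hz, map_zero], ?_⟩
  rw [Local.invOfBr_brEquiv]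
  exact hz0

end Fermat.Agent.S55.Recip15
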